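import Fermat.Agent.RT.InertiaTW.Statement
import Fermat.Agent.GaloisReps.Rep
import Fermat.Agent.TwoAdic.Deform.Setting

/-!
# Local inputs at `p = 2` of the representations over the Hecke algebra

`TraceInertiaTwo` is `InertiaTW.TraceInertia` at `p = 2` for a character of square not `1`.
`LineAtTwo` is ordinarity at `2` of the representations lifting the residual representation of a
`Setting` (which is tres ramifiee at `2`).
-/

set_option autoImplicit false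

noncomputable section

namespace Fermat.Agent.TwoAdic.Module

open UpperHalfPlane ModularFormClass IsLocalRing Matrix
open Fermat.Agent.GaloisReps (AbsGal FullHecke HeckeGaloisModel)
open Fermat.Agent.RT.GammaH (IsNeb HasCoeff seqOp nebWeight)

/-- The trace of inertia at `q` of a twisted newform, for `p = 2`. -/
def TraceInertiaTwo (q R M : ℕ) [Fact q.Prime] [NeZero R] [NeZero M]
    (g : CuspForm (CongruenceSubgroup.Gamma0 M) 2) : Prop :=
  q ≠ 2 → ¬ q ∣ R → M ∣ q ^ 2 * R → g.IsNewform →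
  haveI : NeZero (q ^ 2 * R) :=
    ⟨mul_ne_zero (pow_ne_zero 2 (Fact.out : q.Prime).ne_zero) (NeZero.ne R)⟩
  GaloisReps.CongruenceProperty (q ^ 2 * R) 2 →
  ∀ (χ : DirichletCharacter ℂ q), χ ^ 2 ≠ 1 → (∃ k : ℕ, χ ^ 2 ^ k = 1) →
  ∀ (f : ℍ → ℂ) (a : ℕ → ℂ), IsNeb (q * R) (χ⁻¹ ^ 2) f → HasCoeff f a → f ≠ 0 →
  ∀ (S : Finset ℕ), (∀ v : ℕ, v.Prime → v ∣ q * R * 2 → v ∈ S) →
  (∀ ℓ : ℕ, ℓ.Prime → ℓ ∉ S → ∀ n : ℕ,
    seqOp (nebWeight (χ⁻¹ ^ 2)) ℓ a n = χ⁻¹ (ℓ : ZMod q) * qCoeff g ℓ * a n) →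
  ∀ (O : Type) [CommRing O] [IsDomain O] [IsDiscreteValuationRing O]
    [IsAdicComplete (maximalIdeal O) O] [Finite (ResidueField O)] [CharZero O],
  (2 : O) ∈ maximalIdeal O →
  ∀ (j : O →+* ℂ), Function.Injective j →
  ∀ (ρ : GaloisRepAdic O), ρ.residual.IsAbsolutelyIrreducible →
  (∀ ℓ : ℕ, ℓ.Prime → ℓ ∉ S → ∀ A : ValuationSubring (AlgebraicClosure ℚ), A.LiesOverPrime ℓ →
    ∀ σ : AbsGal, A.IsFrobeniusAt σ ℓ →
      j (ρ.trace σ) = qCoeff g ℓ ∧ LinearMap.det (ρ.ρ σ) = (ℓ : O)) →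
  ∀ (A : ValuationSubring (AlgebraicClosure ℚ)), A.LiesOverPrime q →
  (∀ σ ∈ A.inertiaSubgroupIn ℚ,
    LinearMap.det (ρ.ρ σ) = 1 ∧ ρ.trace σ - 2 ∈ maximalIdeal O) →
  ∀ σ ∈ A.inertiaSubgroupIn ℚ, ∀ u : (ZMod q)ˣ,
    (∀ μ : AlgebraicClosure ℚ, μ ^ q = 1 → σ μ = μ ^ (u : ZMod q).val) →
      j (ρ.trace σ) = χ (u : ZMod q) + χ⁻¹ (u : ZMod q)

/-- The representations of level `M`, `4 ∤ M`, with residual traces those of the residual
representation of `S` have a nonzero functional fixed by inertia at the place of `S` over `2`. -/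
def LineAtTwo {O : Type} [CommRing O] [IsLocalRing O] (S : Deform.Setting O) {M : ℕ} [NeZero M]
    (D : HeckeGaloisModel M 2) : Prop :=
  ¬ 4 ∣ M →
  ∀ (R : Type) [CommRing R] [IsDomain R] [IsDiscreteValuationRing R]
    [IsAdicComplete (maximalIdeal R) R] [Finite (ResidueField R)] [CharZero R],
  (2 : R) ∈ maximalIdeal R →
  ∀ (ι : ℤ_[2] →+* R) (θ' : FullHecke M →+* R) (φ : ResidueField O →+* ResidueField R),
  (∀ σ : AbsGal, residue R ((D.eigenMatrix ι θ' σ).trace) = φ (S.W.rb σ).trace) →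
  ∃ f : Fin 2 → R, f ≠ 0 ∧
    ∀ σ ∈ S.P2.inertiaSubgroupIn ℚ, f ᵥ* D.eigenMatrix ι θ' σ = f

end Fermat.Agent.TwoAdic.Module
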