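import Fermat.Agent.RT.GammaH.NebHecke
import Fermat.Prelude.Def_CuspForm_Newforms

/-!
# Interface of the localised cohomology of `Γ_H` at `p = 2`

`HeckeData` records what the localisation of `Hom(Γ_H, O)` at a residual system has to provide,
`HasNewforms` the forms behind its systems: a square root `et` of the nebentypus, trivial where
the nebentypus is, the newform of the twist by `et⁻¹`, and at each prime where `et` is nontrivial
the twist away from that prime.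
-/

set_option autoImplicit false

noncomputable section

namespace Fermat.Agent.TwoAdic.Module

open IsLocalRing UpperHalfPlane ModularFormClass
open Fermat.Agent.RT.GammaH (IsNeb HasCoeff seqOp nebWeight)
open scoped ModularForm

/-- Every component of `ψ` at a prime of `L` is even. -/
def HasEvenComponents {L : ℕ} {Δ : Type} [CommGroup Δ] (ψ : (ZMod L)ˣ →* Δ) : Prop :=
  ∀ v : ℕ, v.Prime → v ∣ L → ∀ u : (ZMod L)ˣ, ((u : ZMod L).cast : ZMod (L / v)) = 1 →
    u ^ 2 = 1 → ψ u = 1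

/-- `χ` has trivial component at `v`. -/
def IsTrivialAt {L : ℕ} (χ : DirichletCharacter ℂ L) (v : ℕ) : Prop :=
  ∀ u : (ZMod L)ˣ, ((u : ZMod L).cast : ZMod (L / v)) = 1 → χ u = 1

/-- `et` is a square root of `χ` ramified only where `χ` is. -/
structure IsRoot {L : ℕ} (χ et : DirichletCharacter ℂ L) : Prop where
  sq : et ^ 2 = χ
  trivialAt : ∀ v : ℕ, v.Prime → v ∣ L → IsTrivialAt χ v → IsTrivialAt et v

/-- The twist away from `v` of the newform `g`: a form with nebentypus the square of the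
component `ε` of `et` at `v`, of eigenvalues `ε(ℓ) a_ℓ(g)`. -/
def HasPartialTwist {L : ℕ} (et : DirichletCharacter ℂ L) (S : Finset ℕ) (v : ℕ) {L' : ℕ}
    (g : CuspForm (CongruenceSubgroup.Gamma0 L') 2) : Prop :=
  ∃ (ε : DirichletCharacter ℂ v) (F : ℍ → ℂ) (a : ℕ → ℂ),
    (∀ u : (ZMod L)ˣ, ((u : ZMod L).cast : ZMod (L / v)) = 1 →
      ε ((u : ZMod L).cast : ZMod v) = et u) ∧
    IsNeb (v * (L / v) ^ 2) (ε ^ 2) F ∧ HasCoeff F a ∧ F ≠ 0 ∧
    ∀ ℓ : ℕ, ℓ.Prime → ℓ ∉ S → ∀ n : ℕ,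
      seqOp (nebWeight (ε ^ 2)) ℓ a n = ε (ℓ : ZMod v) * qCoeff g ℓ * a n

/-- What a system `(χ, a)` at squarefree level `L` comes from: a square root `et` of `χ` and a
newform `g` with `a ℓ = et ℓ * a_ℓ(g)`. -/
def IsTwistedNewform {L : ℕ} (χ : DirichletCharacter ℂ L) (S : Finset ℕ) (a : ℕ → ℂ) : Prop :=
  ∃ et : DirichletCharacter ℂ L, IsRoot χ et ∧
    ∃ (L' : ℕ) (g : CuspForm (CongruenceSubgroup.Gamma0 L') 2), g.IsNewform ∧ L' ∣ L ^ 2 ∧
      (∀ v : ℕ, v.Prime → v ∣ L → IsTrivialAt χ v → ¬ v ^ 2 ∣ L') ∧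
      (∀ ℓ : ℕ, ℓ.Prime → ℓ ∉ S → a ℓ = et (ℓ : ZMod L) * qCoeff g ℓ) ∧
      ∀ v : ℕ, v.Prime → v ∣ L → ¬ IsTrivialAt χ v → HasPartialTwist et S v g

variable {O : Type} [CommRing O] [IsLocalRing O]

/-- The localised Hecke module of level `ker ψ`. -/
structure HeckeData (L : ℕ) {Δ : Type} [CommGroup Δ] (ψ : (ZMod L)ˣ →* Δ) (S : Finset ℕ)
    (abar : ℕ → ResidueField O) : Type 1 where
  M : Type
  [instAddCommGroup : AddCommGroup M]
  [instModule : Module O M]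
  /-- The `O[Δ]`-rank. -/
  d : ℕ
  basis : Fin d → M
  T : ℕ → Module.End O M
  dia : Δ →* Module.End O M
  basis_bijective : Function.Bijective fun c : Fin d × Δ →₀ O =>
    c.sum fun iδ x => x • dia iδ.2 (basis iδ.1)
  T_comm : ∀ ℓ ℓ', T ℓ * T ℓ' = T ℓ' * T ℓ
  dia_comm : ∀ ℓ δ, T ℓ * dia δ = dia δ * T ℓ
  residual : ∀ ℓ : ℕ, ℓ.Prime → ℓ ∉ S → ∀ a : O, residue O a = abar ℓ →
    ∃ n : ℕ, ∀ x : M, ((T ℓ - a • (1 : Module.End O M)) ^ n) x ∈
      (maximalIdeal O) • (⊤ : Submodule O M)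
  isReduced : IsReduced (Algebra.adjoin O (Set.range dia ∪ T '' {ℓ | ℓ.Prime ∧ ℓ ∉ S}))

attribute [instance] HeckeData.instAddCommGroup HeckeData.instModule

variable {L : ℕ} {Δ : Type} [CommGroup Δ] {ψ : (ZMod L)ˣ →* Δ} {S : Finset ℕ}
  {abar : ℕ → ResidueField O}

/-- The Hecke algebra. -/
abbrev HeckeData.algebra (H : HeckeData L ψ S abar) : Subalgebra O (Module.End O H.M) :=
  Algebra.adjoin O (Set.range H.dia ∪ H.T '' {ℓ | ℓ.Prime ∧ ℓ ∉ S})

/-- The nebentypus of a system. -/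
def HeckeData.nebChar (H : HeckeData L ψ S abar) (θ : H.algebra →+* ℂ) :
    DirichletCharacter ℂ L :=
  let d : Δ →* H.algebra :=
    { toFun := fun δ => ⟨H.dia δ, Algebra.subset_adjoin (Or.inl ⟨δ, rfl⟩)⟩
      map_one' := Subtype.ext (map_one H.dia)
      map_mul' := fun δ δ' => Subtype.ext (map_mul H.dia δ δ') }
  MulChar.ofUnitHom (((θ : H.algebra →* ℂ).comp d).toHomUnits.comp ψ)

/-- The system of `θ` away from `S`. -/
def HeckeData.system (H : HeckeData L ψ S abar) (θ : H.algebra →+* ℂ) (ℓ : ℕ) : ℂ :=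
  if h : ℓ.Prime ∧ ℓ ∉ S then θ ⟨H.T ℓ, Algebra.subset_adjoin (Or.inr ⟨ℓ, h, rfl⟩)⟩ else 0

/-- Every system comes from a newform twisted by a square root of its nebentypus. -/
def HeckeData.HasNewforms (H : HeckeData L ψ S abar) : Prop :=
  ∀ θ : H.algebra →+* ℂ, IsTwistedNewform (H.nebChar θ) S (H.system θ)

end Fermat.Agent.TwoAdic.Module
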