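import Fermat.Agent.TwoAdic.Module.Glue.Conditions
import Fermat.Agent.TwoAdic.Patch.Big

/-!
# The datum of the big level from the glued representation

The localised module of level `Γ_H(L)` with the normalised glued representation is a `BigDatum`:
free over the group ring of the diamonds, of determinant diamond times cyclotomic, with the local
conditions.
-/

set_option autoImplicit false

noncomputable section

open IsLocalRing Matrix
open scoped Pointwise

namespace Fermat.Agent.TwoAdic.Module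

open GaloisReps (AbsGal HeckeGaloisModel)
open NewformLocal (UnipotentAt)
open Deform (TwoLine FixesLine StableLine)
open Fermat.Agent.Deform (M2 conjM IsResAlg Lifts IsNormal IsCont)

section Line

variable {O : Type} [CommRing O] [IsLocalRing O] {St : Deform.Setting O}
  {A : Type} [CommRing A]

/-- The row `(x, 1)`. -/
theorem vecMul_eq_iff {x : A} {T : M2 A} :
    FixesLine x T ↔ ![x, 1] ᵥ* T = ![x, 1] := by
  constructor
  · intro h
    ext j
    fin_cases j <;> simp [vecMul, dotProduct, Fin.sum_univ_two]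
    · linear_combination h.1
    · linear_combination h.2
  · intro h
    have h0 := congrFun h 0
    have h1 := congrFun h 1
    simp [vecMul, dotProduct, Fin.sum_univ_two] at h0 h1
    exact ⟨by linear_combination h0, by linear_combination h1⟩

theorem stableLine_iff {x : A} {F : M2 A} :
    StableLine x F ↔ ∃ c : A, ![x, 1] ᵥ* F = c • ![x, 1] := by
  constructor
  · intro h
    refine ⟨x * F 0 1 + F 1 1, ?_⟩
    ext j
    fin_cases j <;> simp [vecMul, dotProduct, Fin.sum_univ_two]
    exact h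
  · rintro ⟨c, h⟩
    have h0 := congrFun h 0
    have h1 := congrFun h 1
    simp [vecMul, dotProduct, Fin.sum_univ_two] at h0 h1
    unfold StableLine
    linear_combination h0 - x * h1

/-- A line in another basis. -/
theorem twoLine_conj {r : AbsGal →* M2 A} {x : A} (hx : TwoLine St r x) (P : (M2 A)ˣ) {v : A}
    (hv : (x * (P : M2 A) 0 1 + (P : M2 A) 1 1) * v = 1) :
    TwoLine St (conjM P r) ((x * (P : M2 A) 0 0 + (P : M2 A) 1 0) * v) := by
  set y := (x * (P : M2 A) 0 0 + (P : M2 A) 1 0) * v with hy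
  have hvec : ![y, 1] = v • (![x, 1] ᵥ* (P : M2 A)) := by
    ext j
    fin_cases j <;> simp [vecMul, dotProduct, Fin.sum_univ_two, hy]
    · ring
    · linear_combination -hv
  have key : ∀ σ (c : A), ![x, 1] ᵥ* r σ = c • ![x, 1] →
      ![y, 1] ᵥ* conjM P r σ = c • ![y, 1] := fun σ c h => by
    rw [hvec, smul_vecMul, vecMul_vecMul, Fermat.Agent.Deform.conjM_apply, ← mul_assoc,
      ← mul_assoc, Units.mul_inv, one_mul, ← vecMul_vecMul, h, smul_vecMul, smul_comm]
  refine ⟨fun σ hσ => vecMul_eq_iff.2 ?_, fun σ hσ => stableLine_iff.2 ?_⟩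
  · simpa using key σ 1 (by rw [one_smul]; exact vecMul_eq_iff.1 (hx.1 σ hσ))
  · obtain ⟨c, hc⟩ := stableLine_iff.1 (hx.2 σ hσ)
    exact ⟨c, key σ c hc⟩

end Line

variable {O : Type} [CommRing O] [IsDomain O] [IsDiscreteValuationRing O]
  [IsAdicComplete (maximalIdeal O) O] [Finite (ResidueField O)] [CharZero O]
  {L : ℕ} [NeZero L] {Δ : Type} [CommGroup Δ] [Finite Δ] {ψ : (ZMod L)ˣ →* Δ} {S : Finset ℕ}
  {abar : ℕ → ResidueField O} (H : HeckeData L ψ S abar)
  {St : Deform.Setting O} {Lv : Deform.Level St}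

/-- What `Patch.BigDatum` asks of the level: `ψ` is bijective on the monomials in the images of
the `τ` and `g`, trivial at `2` and at the primes of the setting, and with values in `⟨g⟩` outside
the auxiliary primes. -/
structure BigHyp (Da : Deform.Aux St Lv) (n : ℕ) (g : Δ) : Prop where
  squarefree : Squarefree L
  two_dvd : 2 ∣ L
  mem_S : ∀ q : ℕ, q.Prime → q ∣ L → q ∈ S
  two_mem : 2 ∈ S
  isPGroup : IsPGroup 2 Δ
  d_pos : 0 < H.d
  g_sq : g ^ 2 = 1
  pow_eq_one : ∀ x : Δ, x ^ 2 ^ n = 1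
  bijective : Function.Bijective fun p : (Da.ι → Fin (2 ^ n)) × Fin 2 =>
    (∏ l, ψ (cycHom L (Da.τ l)) ^ (p.1 l : ℕ)) * g ^ (p.2 : ℕ)
  comp_two : ∀ u : (ZMod L)ˣ, ((u : ZMod L).cast : ZMod (L / 2)) = 1 → ψ u = 1
  comp_T : ∀ v ∈ St.T, v ∣ L → ∀ u : (ZMod L)ˣ,
    ((u : ZMod L).cast : ZMod (L / v)) = 1 → ψ u = 1
  comp_other : ∀ v : ℕ, v.Prime → v ∣ L → v ∉ Lv.Q → ∀ u : (ZMod L)ˣ,
    ((u : ZMod L).cast : ZMod (L / v)) = 1 → ψ u = 1 ∨ ψ u = g
  mem_H : ∀ σ ∈ Lv.H, ψ (cycHom L σ) = 1 ∨ ψ (cycHom L σ) = g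
  φ2 : ψ (cycHom L St.φ2) = g * ψ (cycHom L Lv.root2) ^ 2

variable {H} {Da : Deform.Aux St Lv} {n : ℕ} {g : Δ}

/-- The basis on the monomials. -/
def BigHyp.bas (h : BigHyp H Da n g) :
    Module.Basis (Fin H.d × (Da.ι → Fin (2 ^ n)) × Fin 2) O H.M :=
  (Module.Basis.ofRepr (LinearEquiv.ofBijective
    (Finsupp.linearCombination O fun iδ : Fin H.d × Δ => H.dia iδ.2 (H.basis iδ.1))
    H.basis_bijective).symm).reindex
    ((Equiv.refl (Fin H.d)).prodCongr (Equiv.ofBijective _ h.bijective)).symm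

theorem BigHyp.bas_apply (h : BigHyp H Da n g)
    (p : Fin H.d × (Da.ι → Fin (2 ^ n)) × Fin 2) :
    h.bas p = ((∏ l, diaA H (ψ (cycHom L (Da.τ l))) ^ (p.2.1 l : ℕ)) *
      diaA H g ^ (p.2.2 : ℕ)) • H.basis p.1 := by
  have e : (∏ l, diaA H (ψ (cycHom L (Da.τ l))) ^ (p.2.1 l : ℕ)) * diaA H g ^ (p.2.2 : ℕ) =
      diaA H ((∏ l, ψ (cycHom L (Da.τ l)) ^ (p.2.1 l : ℕ)) * g ^ (p.2.2 : ℕ)) := by
    simp only [map_mul, map_prod, map_pow]
  rw [e, BigHyp.bas, Module.Basis.reindex_apply, Module.Basis.coe_ofRepr]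
  simp only [LinearEquiv.symm_symm]
  refine (LinearEquiv.ofBijective_apply _ _).trans ?_
  rw [Finsupp.linearCombination_single, one_smul]
  rfl

variable [IsLocalRing H.algebra] [IsLocalHom (algebraMap O H.algebra)]
  {D : ∀ (M : ℕ) [NeZero M], HeckeGaloisModel M 2}
  {pt : ∀ θ : H.algebra →ₐ[O] KBar O, Point 2 H θ.toRingHom}
  (G : Glued D pt St.W.rb)

omit [IsAdicComplete (maximalIdeal O) O] [Finite (ResidueField O)] [CharZero O] [Finite Δ] in
theorem Glued.lifts (hres : IsResAlg O H.algebra) : Lifts St.W hres G.R :=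
  fun σ i j => G.augment_apply hres σ i j

theorem Glued.exists_normalised (hΔ : IsPGroup 2 Δ) :
    ∃ P : (M2 H.algebra)ˣ,
      Lifts St.W (isResAlg_algebra H (two_mem_maximalIdeal St) hΔ) (conjM P G.R) ∧
      IsNormal St.W (conjM P G.R) :=
  haveI := isAdicComplete_algebra H
  Fermat.Agent.Deform.exists_normal (G.lifts _)

/-- The normalised representation. -/
def Glued.normalised (hΔ : IsPGroup 2 Δ) : AbsGal →* M2 H.algebra :=
  conjM (G.exists_normalised hΔ).choose G.R

theorem Glued.normalised_trace (hΔ : IsPGroup 2 Δ) (σ : AbsGal) :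
    (G.normalised hΔ σ).trace = (G.R σ).trace := by
  rw [normalised, Fermat.Agent.Deform.conjM_apply, Matrix.trace_mul_comm, ← mul_assoc,
    Units.mul_inv, one_mul]

theorem Glued.normalised_det (hΔ : IsPGroup 2 Δ) (σ : AbsGal) :
    (G.normalised hΔ σ).det = (G.R σ).det := by
  rw [normalised, Fermat.Agent.Deform.conjM_apply]
  exact Matrix.det_units_conj' _ _

theorem Glued.normalised_sub_one (hΔ : IsPGroup 2 Δ) (σ : AbsGal) :
    G.normalised hΔ σ - 1 = (↑(G.exists_normalised hΔ).choose⁻¹ : M2 H.algebra) * (G.R σ - 1) *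
      ((G.exists_normalised hΔ).choose : M2 H.algebra) := by
  rw [normalised, Fermat.Agent.Deform.conjM_apply, mul_sub, sub_mul, mul_one, Units.inv_mul]

omit [IsLocalRing H.algebra] [IsLocalHom (algebraMap O H.algebra)] in
/-- An element killed by `g + 1` moves the module into `(g - 1) M`. -/
theorem BigHyp.smul_mem_of_mul_eq_zero (h : BigHyp H Da n g) {x : H.algebra}
    (hx : x * (diaA H g + 1) = 0) (m : H.M) :
    x • m ∈ Ideal.span {diaA H g - 1} • (⊤ : Submodule H.algebra H.M) := by
  classical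
  set y := x • m with hy
  have hg : diaA H g * diaA H g = 1 := by rw [← map_mul, ← sq, h.g_sq, map_one]
  set c := h.bas.repr y with hc
  -- the summand without `g`
  set w : H.M := ∑ q : Fin H.d × (Da.ι → Fin (2 ^ n)), c (q.1, q.2, 1) • h.bas (q.1, q.2, 0)
    with hw
  have hb : ∀ (j : Fin H.d) (e : Da.ι → Fin (2 ^ n)),
      diaA H g • h.bas (j, e, 0) = h.bas (j, e, 1) ∧
        diaA H g • h.bas (j, e, 1) = h.bas (j, e, 0) := fun j e => by
    simp only [h.bas_apply, Fin.val_zero, Fin.val_one, pow_zero, pow_one, mul_one, ← mul_smul]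
    constructor
    · rw [mul_comm]
    · rw [mul_left_comm, hg, mul_one]
  have hzero : ∀ (j : Fin H.d) (e : Da.ι → Fin (2 ^ n)), c (j, e, 0) + c (j, e, 1) = 0 := by
    have h0 : (diaA H g + 1) • y = 0 := by rw [hy, ← mul_smul, mul_comm, hx, zero_smul]
    intro j e
    have h1 := congrArg (fun z => h.bas.repr z (j, e, 0)) h0
    rw [← h.bas.sum_repr y, Finset.smul_sum] at h1
    simp only [← hc, Fintype.sum_prod_type, Fin.sum_univ_two, smul_comm (diaA H g + 1), add_smul,
      one_smul, (hb _ _).1, (hb _ _).2, smul_add, map_zero, map_sum, map_add, map_smul,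
      Module.Basis.repr_self, Finsupp.coe_zero, Pi.zero_apply, Finsupp.coe_finsetSum,
      Finset.sum_apply, Finsupp.add_apply, Finsupp.smul_apply, Finsupp.single_apply, smul_eq_mul,
      Prod.mk.injEq, mul_ite, mul_one, mul_zero] at h1
    simpa [ite_and, Finset.sum_add_distrib, add_comm] using h1
  have hyw : y = (diaA H g - 1) • w := by
    conv_lhs => rw [← h.bas.sum_repr y]
    rw [hw, Finset.smul_sum]
    simp only [← hc, Fintype.sum_prod_type, Fin.sum_univ_two, smul_comm (diaA H g - 1),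
      sub_smul, one_smul, (hb _ _).1]
    refine Finset.sum_congr rfl fun j _ => Finset.sum_congr rfl fun e _ => ?_
    rw [eq_neg_of_add_eq_zero_left (hzero j e), neg_smul, smul_sub]
    abel
  rw [hyw]
  exact Submodule.smul_mem_smul (Ideal.subset_span rfl) Submodule.mem_top

omit [IsLocalRing H.algebra] [IsLocalHom (algebraMap O H.algebra)] in
/-- What is zero at the points with `g = 1` is killed by `g + 1`. -/
theorem mul_add_one_eq_zero (hg : g ^ 2 = 1) {x : H.algebra}
    (hx : ∀ θ : H.algebra →ₐ[O] KBar O, θ (diaA H g) = 1 → θ x = 0) :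
    x * (diaA H g + 1) = 0 := by
  refine eq_zero_of_forall_point fun θ => ?_
  have h2 : θ (diaA H g) * θ (diaA H g) = 1 := by
    rw [← map_mul, ← map_mul, ← sq, hg, map_one, map_one]
  rw [map_mul, map_add, map_one]
  rcases mul_self_eq_one_iff.1 h2 with h1 | h1
  · rw [hx θ h1, zero_mul]
  · rw [h1, neg_add_cancel, mul_zero]

set_option maxHeartbeats 800000 in
/-- **The datum of the big level.** -/
def Glued.bigDatum (h : BigHyp H Da n g)
    (hnew : ∀ θ v, v.Prime → v ∣ L → v ≠ 2 → v ∉ St.T → v ∉ Lv.Q →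
      TrivialComponent (θ : H.algebra →ₐ[O] KBar O).toRingHom v → ¬ v ∣ (pt θ).M)
    (hU : ∀ (v M : ℕ) [NeZero M], v.Prime → v ≠ 2 → v ∣ M → ¬ v ^ 2 ∣ M → UnipotentAt (D M) v)
    (hE : ∀ (v R' M : ℕ) [Fact v.Prime] [NeZero R'] [NeZero M]
      (g : CuspForm (CongruenceSubgroup.Gamma0 M) 2), TraceInertiaTwo v R' M g)
    (hspan : Submodule.span (ResidueField O) (Set.range St.W.rb) = ⊤)
    (hline : ∀ (M : ℕ) [NeZero M], LineAtTwo St (D M)) : Patch.BigDatum Da n where
  T := H.algebra
  res := isResAlg_algebra H (two_mem_maximalIdeal St) h.isPGroup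
  r := G.normalised h.isPGroup
  lifts := (G.exists_normalised h.isPGroup).choose_spec.1
  normal := (G.exists_normalised h.isPGroup).choose_spec.2
  cont := G.cont.conj _
  M := H.M
  δ i := diaA H (ψ (cycHom L (Da.τ i)))
  g := diaA H g
  δ_pow i := by rw [← map_pow, h.pow_eq_one, map_one]
  g_sq := by rw [← map_pow, h.g_sq, map_one]
  d := H.d
  d_pos := h.d_pos
  b := H.basis
  bas := h.bas
  bas_eq := h.bas_apply
  char := (diaA H).comp (ψ.comp (cycHom L))
  det_congr N σ c hc := by
    rw [G.normalised_det h.isPGroup, Nat.cast_pow]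
    exact_mod_cast G.det_congr N σ c hc
  char_τ i := rfl
  char_mem σ := by
    obtain ⟨⟨e, ε⟩, hp⟩ := h.bijective.2 (ψ (cycHom L σ))
    show diaA H (ψ (cycHom L σ)) - 1 ∈ _
    set I := Ideal.span ((Set.range fun i => diaA H (ψ (cycHom L (Da.τ i))) - 1) ∪
      {diaA H g - 1})
    rw [← hp, ← Ideal.Quotient.eq, map_one]
    simp only [map_mul, map_prod, map_pow]
    have h1 : ∀ x, x - 1 ∈ I → Ideal.Quotient.mk I x = 1 := fun x hx => by
      rw [← map_one (Ideal.Quotient.mk I), Ideal.Quotient.eq]; exact hx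
    rw [h1 _ (Ideal.subset_span (Or.inr rfl)), one_pow, mul_one]
    refine Finset.prod_eq_one fun l _ => ?_
    rw [h1 _ (Ideal.subset_span (Or.inl ⟨l, rfl⟩)), one_pow]
  char_H σ hσ := by
    show diaA H (ψ (cycHom L σ)) - 1 ∈ _
    rcases h.mem_H σ hσ with e | e <;> rw [e]
    · rw [map_one, sub_self]; exact zero_mem _
    · exact Ideal.subset_span rfl
  char_inertia_two σ hσ := by
    show diaA H (ψ (cycHom L σ)) = 1
    rw [h.comp_two _ (cycHom_inertia_component h.squarefree Nat.prime_two h.two_dvd St.P2_over hσ),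
      map_one]
  char_φ2 := by
    show diaA H (ψ (cycHom L St.φ2)) = diaA H g * diaA H (ψ (cycHom L Lv.root2)) ^ 2
    rw [h.φ2, map_mul, map_pow]
  unramified q hq hq2 hqT hqQ P hP σ hσ j l m := by
    refine h.smul_mem_of_mul_eq_zero ?_ m
    set C : (M2 H.algebra)ˣ := (G.exists_normalised h.isPGroup).choose
    have key : ∀ i k : Fin 2, (G.R σ - 1) i k * (diaA H g + 1) = 0 := by
      intro i k
      by_cases hqL : q ∣ L
      · refine mul_add_one_eq_zero h.g_sq fun θ hθ => ?_
        have htriv : TrivialComponent θ.toRingHom q := fun u hu => by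
          show θ (diaA H (ψ u)) = 1
          rcases h.comp_other q hq hqL hqQ u hu with e | e <;> rw [e]
          · rw [map_one, map_one]
          · exact hθ
        have h1 := congrFun (congrFun ((G.map_eq_one θ σ).2
          ((pt θ).rep_inertia_eq_one (D := D) h.squarefree hq hqL hP hσ hq2 htriv
            (hnew θ q hq hqL hq2 hqT hqQ htriv))) i) k
        rw [Matrix.map_apply] at h1
        rw [Matrix.sub_apply, map_sub, h1]
        rcases eq_or_ne i k with rfl | hik
        · simp
        · simp [Matrix.one_apply_ne hik]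
      · rw [G.unramified hq hqL hq2 hP hσ, sub_self, Matrix.zero_apply, zero_mul]
    have hX : (diaA H g + 1) • (G.R σ - 1) = 0 :=
      Matrix.ext fun i k => by rw [Matrix.smul_apply, smul_eq_mul, mul_comm, key, Matrix.zero_apply]
    rw [G.normalised_sub_one h.isPGroup, mul_comm, ← smul_eq_mul, ← Matrix.smul_apply,
      ← smul_mul_assoc, ← mul_smul_comm, hX, mul_zero, zero_mul, Matrix.zero_apply]
  steinberg q hqT P hP σ hσ := by
    rw [G.normalised_trace h.isPGroup, G.normalised_det h.isPGroup]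
    have hq := St.prime_of_mem q hqT
    have hq2 : q ≠ 2 := fun e => St.two_notMem (e ▸ hqT)
    by_cases hqL : q ∣ L
    · have h1 : ∀ θ : H.algebra →ₐ[O] KBar O, θ (G.R σ).trace = θ 2 ∧ θ (G.R σ).det = θ 1 :=
        fun θ => by
          have htriv : TrivialComponent θ.toRingHom q := fun u hu => by
            rw [h.comp_T q hqT hqL u hu, map_one, map_one]
          have h1 := (pt θ).trace_det_inertia (D := D) h.squarefree hq hqL hP hσ hq2 htriv
            fun e e' => hU q _ hq hq2 e e'
          rw [map_ofNat, map_one, G.trace_eq, G.det_eq]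
          exact h1
      exact ⟨sub_eq_zero.1 (eq_zero_of_forall_point fun θ => by rw [map_sub, (h1 θ).1, sub_self]),
        sub_eq_zero.1 (eq_zero_of_forall_point fun θ => by rw [map_sub, (h1 θ).2, sub_self])⟩
    · rw [G.unramified hq hqL hq2 hP hσ]
      exact ⟨by simp, Matrix.det_one⟩
  qdet q hqQ P hP σ hσ := by
    rw [det_sub_one_eq, G.normalised_trace h.isPGroup, G.normalised_det h.isPGroup]
    have hq := Lv.prime_of_mem q hqQ
    have hq2 := Lv.ne_two q hqQ
    by_cases hqL : q ∣ L
    · refine eq_zero_of_forall_point fun θ => ?_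
      rw [map_add, map_sub, map_one, G.trace_eq, G.det_eq]
      obtain ⟨φ, hφ⟩ := G.exists_residue_trace (two_mem_maximalIdeal St) rfl h.isPGroup θ
      refine (pt θ).det_sub_one_inertia h.squarefree hq hqL hP hσ h.isPGroup hq2 h.mem_S h.two_mem
        (fun e e' => hU q _ hq hq2 e e') (fun R' _ _ => hE q R' _ _)
        (fun N _ => GaloisReps.congruenceProperty N 2)
        (G.isAbsolutelyIrreducible (two_mem_maximalIdeal St) rfl h.isPGroup θ hspan) fun τ hτ => ?_
      rw [← residue_eq_zero_iff, eigenHom_apply, hφ,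
        St.rb_unramified q hq hq2 (Lv.notMem_T q hqQ) P hP τ hτ, Matrix.trace_one,
        Fintype.card_fin, Nat.cast_ofNat, St.two_eq_zero, map_zero]
    · rw [G.unramified hq hqL hq2 hP hσ, Matrix.det_one, Matrix.trace_one, Fintype.card_fin]
      norm_num
  two := by
    obtain ⟨x, hx⟩ := G.exists_twoLine h.squarefree h.comp_two h.isPGroup h.two_dvd hline
    have hres := isResAlg_algebra H (two_mem_maximalIdeal St) h.isPGroup
    set C : (M2 H.algebra)ˣ := (G.exists_normalised h.isPGroup).choose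
    have hl := G.lifts hres
    -- residually the line is `(0, 1)` and `C` is upper triangular
    set a : H.algebra →+* ResidueField O := (Fermat.Agent.Deform.augment hres).toRingHom
    have hR : a.mapMatrix (G.R St.σ2) = Deform.upperU (ResidueField O) := by
      rw [← St.rb_σ2]; exact Matrix.ext fun i j => hl St.σ2 i j
    have hr : a.mapMatrix (G.normalised h.isPGroup St.σ2) = Deform.upperU (ResidueField O) := by
      rw [← St.rb_σ2]
      exact Matrix.ext fun i j => (G.exists_normalised h.isPGroup).choose_spec.1 St.σ2 i j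
    have hx0 : a x = 0 := by
      have h1 := (hx.1 St.σ2 St.σ2_mem).map a
      rw [hR] at h1
      simpa [Deform.upperU, FixesLine] using h1.2
    have hcomm : Deform.upperU (ResidueField O) * a.mapMatrix (C : M2 H.algebra) =
        a.mapMatrix (C : M2 H.algebra) * Deform.upperU (ResidueField O) := by
      conv_lhs => rw [← hR, ← map_mul]
      conv_rhs => rw [← hr, ← map_mul]
      rw [Glued.normalised, Fermat.Agent.Deform.conjM_apply, ← mul_assoc, ← mul_assoc,
        Units.mul_inv, one_mul]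
    have h10 : a ((C : M2 H.algebra) 1 0) = 0 := by
      simpa [Deform.upperU, Matrix.mul_apply, Fin.sum_univ_two] using congrFun (congrFun hcomm 0) 0
    have hu : IsUnit (x * (C : M2 H.algebra) 0 1 + (C : M2 H.algebra) 1 1) := by
      refine Fermat.Agent.Deform.isUnit_of_augment_ne_zero hres fun h0 => ?_
      change a (x * (C : M2 H.algebra) 0 1 + (C : M2 H.algebra) 1 1) = 0 at h0
      rw [map_add, map_mul, hx0, zero_mul, zero_add] at h0
      have hd : IsUnit ((C : M2 H.algebra).det) := C.isUnit.map Matrix.detMonoidHom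
      have hd' := (hd.map a).ne_zero
      rw [Matrix.det_fin_two, map_sub, map_mul, map_mul, h10, h0] at hd'
      simp at hd'
    obtain ⟨v, hv⟩ := hu.exists_right_inv
    exact ⟨_, twoLine_conj hx C hv⟩

variable (h : BigHyp H Da n g)
    (hnew : ∀ θ v, v.Prime → v ∣ L → v ≠ 2 → v ∉ St.T → v ∉ Lv.Q →
      TrivialComponent (θ : H.algebra →ₐ[O] KBar O).toRingHom v → ¬ v ∣ (pt θ).M)
    (hU : ∀ (v M : ℕ) [NeZero M], v.Prime → v ≠ 2 → v ∣ M → ¬ v ^ 2 ∣ M → UnipotentAt (D M) v)
    (hE : ∀ (v R' M : ℕ) [Fact v.Prime] [NeZero R'] [NeZero M]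
      (g : CuspForm (CongruenceSubgroup.Gamma0 M) 2), TraceInertiaTwo v R' M g)
    (hspan : Submodule.span (ResidueField O) (Set.range St.W.rb) = ⊤)
    (hline : ∀ (M : ℕ) [NeZero M], LineAtTwo St (D M))

/-- Frobenius has trace the Hecke operator. -/
theorem Glued.bigDatum_trace_frobenius {ℓ : ℕ} (hℓ : ℓ.Prime) (hℓS : ℓ ∉ S)
    {P : ValuationSubring (AlgebraicClosure ℚ)} (hP : P.LiesOverPrime ℓ) {σ : AbsGal}
    (hσ : P.IsFrobeniusAt σ ℓ) :
    ((G.bigDatum h hnew hU hE hspan hline).r σ).trace = TA H hℓ hℓS := by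
  show (G.normalised h.isPGroup σ).trace = _
  rw [G.normalised_trace h.isPGroup]
  have h1 := G.charpoly_frobenius h.two_mem h.mem_S hℓ hℓS hP hσ
  rw [Matrix.charpoly_fin_two] at h1
  have := congrArg (fun p => Polynomial.coeff p 1) h1
  simpa using this

end Fermat.Agent.TwoAdic.Module
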