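import Mathlib.LinearAlgebra.Matrix.ToLin
import Mathlib.LinearAlgebra.Matrix.NonsingularInverse
import Mathlib.LinearAlgebra.Matrix.ToLinearEquiv
import Mathlib.LinearAlgebra.FiniteDimensional.Lemmas
import Mathlib.LinearAlgebra.Dimension.Constructions
import Mathlib.LinearAlgebra.Matrix.Notation
import Mathlib.LinearAlgebra.Matrix.Trace

/-!
# Two-dimensional representations with equal traces, one of them spanning, are conjugate
-/

set_option autoImplicit false

noncomputable section

namespace Fermat.Agent.TwoAdic.Module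

open Matrix

variable {K : Type*} [Field K] {G : Type*} [Group G]
  (ρ₁ ρ₂ : G →* Matrix (Fin 2) (Fin 2) K)

/-- A representation with the traces of a spanning one is conjugate to it. -/
theorem exists_intertwiner (hspan : Submodule.span K (Set.range ρ₁) = ⊤)
    (htr : ∀ g, (ρ₁ g).trace = (ρ₂ g).trace) :
    ∃ X : Matrix (Fin 2) (Fin 2) K, X.det ≠ 0 ∧ ∀ g, X * ρ₁ g = ρ₂ g * X := by
  classical
  set L₁ := Finsupp.linearCombination K (fun g => ρ₁ g) with hL₁
  set L₂ := Finsupp.linearCombination K (fun g => ρ₂ g) with hL₂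
  have hpair : ∀ c d, (L₁ c * L₁ d).trace = (L₂ c * L₂ d).trace := fun c d => by
    induction c using Finsupp.induction_linear with
    | zero => simp
    | add x y hx hy => simp only [map_add, add_mul, trace_add, hx, hy]
    | single g a =>
      induction d using Finsupp.induction_linear with
      | zero => simp
      | add x y hx hy => simp only [map_add, mul_add, trace_add, hx, hy]
      | single h b =>
        simp [L₁, L₂, ← map_mul, htr]
  have hc : ∀ p : Fin 2 × Fin 2, ∃ c, L₁ c = Matrix.single p.1 p.2 1 := fun p => by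
    have h : Matrix.single p.1 p.2 (1 : K) ∈ Submodule.span K (Set.range ρ₁) := by
      rw [hspan]; trivial
    obtain ⟨c, hc⟩ := Finsupp.mem_span_range_iff_exists_finsupp.1 h
    exact ⟨c, by rw [hL₁, Finsupp.linearCombination_apply]; exact hc⟩
  choose c hc using hc
  set B : Fin 2 × Fin 2 → Matrix (Fin 2) (Fin 2) K := fun p => L₂ (c p) with hB
  have hgram : ∀ p q, (B p * B q).trace = if q = (p.2, p.1) then 1 else 0 := fun p q => by
    rw [hB, ← hpair, hc, hc]
    obtain ⟨i, j⟩ := p
    obtain ⟨k, l⟩ := q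
    fin_cases i <;> fin_cases j <;> fin_cases k <;> fin_cases l <;>
      simp
  have hcoef : ∀ (w : Fin 2 × Fin 2 → K) (q : Fin 2 × Fin 2),
      ((∑ p, w p • B p) * B (q.2, q.1)).trace = w q := fun w q => by
    rw [Finset.sum_mul, trace_sum, Finset.sum_eq_single q]
    · simp [smul_mul_assoc, hgram]
    · intro p _ hp
      simp only [smul_mul_assoc, trace_smul, hgram, smul_eq_mul, mul_ite, mul_one, mul_zero,
        ite_eq_right_iff]
      intro h
      exact absurd (Prod.ext (Prod.ext_iff.1 h).2.symm (Prod.ext_iff.1 h).1.symm) hp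
    · simp
  have hind : LinearIndependent K B := by
    rw [Fintype.linearIndependent_iff]
    intro w hw q
    rw [← hcoef w q, hw, zero_mul, trace_zero]
  have htop : Submodule.span K (Set.range B) = ⊤ := hind.span_eq_top_of_card_eq_finrank (by
    rw [Module.finrank_matrix, Module.finrank_self, Fintype.card_prod, Fintype.card_fin, mul_one])
  have heq : ∀ d, L₂ d = ∑ p : Fin 2 × Fin 2, L₁ d p.1 p.2 • B p := by
    intro d
    have hd' : L₁ (∑ p : Fin 2 × Fin 2, L₁ d p.1 p.2 • c p) = L₁ d := by
      rw [map_sum]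
      simp only [map_smul, hc]
      ext i j
      fin_cases i <;> fin_cases j <;> simp [Fintype.sum_prod_type, Fin.sum_univ_two]
    have h0 : ∀ q, ((L₂ d - ∑ p : Fin 2 × Fin 2, L₁ d p.1 p.2 • B p) * B q).trace = 0 := fun q => by
      have : (∑ p : Fin 2 × Fin 2, L₁ d p.1 p.2 • B p) = L₂ (∑ p : Fin 2 × Fin 2, L₁ d p.1 p.2 • c p) := by
        simp only [map_sum, map_smul, hB]
      rw [this, hB, sub_mul, trace_sub, ← hpair, ← hpair, hd', sub_self]
    obtain ⟨w, hw⟩ := (Submodule.mem_span_range_iff_exists_fun K).1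
      (htop ▸ Submodule.mem_top (x := L₂ d - ∑ p : Fin 2 × Fin 2, L₁ d p.1 p.2 • B p))
    have hw0 : w = 0 := funext fun q => by
      rw [← hcoef w q, hw, h0]; rfl
    rw [← sub_eq_zero, ← hw, hw0]
    simp
  set Φ : Matrix (Fin 2) (Fin 2) K →ₗ[K] Matrix (Fin 2) (Fin 2) K :=
    { toFun := fun M => ∑ p : Fin 2 × Fin 2, M p.1 p.2 • B p
      map_add' := fun M N => by simp [add_smul, Finset.sum_add_distrib]
      map_smul' := fun a M => by simp [Finset.smul_sum, smul_smul] } with hΦdef
  have hΦg : ∀ g, Φ (ρ₁ g) = ρ₂ g := fun g => by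
    have := heq (Finsupp.single g 1)
    simp only [L₁, L₂, Finsupp.linearCombination_single, one_smul] at this
    exact this.symm
  have hΦB : ∀ p, Φ (Matrix.single p.1 p.2 1) = B p := fun p => by
    rw [← hc p, hB]
    exact (heq (c p)).symm
  have hmem : ∀ M, M ∈ Submodule.span K (Set.range ρ₁) := fun M => by rw [hspan]; trivial
  have hΦmul : ∀ M N, Φ (M * N) = Φ M * Φ N := fun M N => by
    induction hmem M using Submodule.span_induction with
    | mem x hx =>
      obtain ⟨g, rfl⟩ := hx
      induction hmem N using Submodule.span_induction with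
      | mem y hy =>
        obtain ⟨h, rfl⟩ := hy
        rw [← map_mul, hΦg, hΦg, hΦg, map_mul]
      | zero => simp
      | add x y _ _ hx hy => rw [mul_add, map_add, map_add, mul_add, hx, hy]
      | smul a x _ hx => rw [mul_smul_comm, map_smul, map_smul, mul_smul_comm, hx]
    | zero => simp
    | add x y _ _ hx hy => rw [add_mul, map_add, map_add, add_mul, hx, hy]
    | smul a x _ hx => rw [smul_mul_assoc, map_smul, map_smul, smul_mul_assoc, hx]
  have hBmul : ∀ i j k, B (i, j) * B (j, k) = B (i, k) := fun i j k => by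
    rw [← hΦB, ← hΦB, ← hΦB, ← hΦmul, Matrix.single_mul_single_same, mul_one]
  have hBzero : ∀ i j j' k, j ≠ j' → B (i, j) * B (j', k) = 0 := fun i j j' k h => by
    rw [← hΦB, ← hΦB, ← hΦmul, Matrix.single_mul_single_of_ne (h := h), map_zero]
  have hB0 : B (0, 0) ≠ 0 := hind.ne_zero _
  obtain ⟨r, b, hrb⟩ : ∃ r b, B (0, 0) r b ≠ 0 := by
    by_contra h
    push Not at h
    exact hB0 (Matrix.ext h)
  set X : Matrix (Fin 2) (Fin 2) K := Matrix.of fun r i => B (i, 0) r b with hX
  have hBX : ∀ p, B p * X = X * Matrix.single p.1 p.2 1 := fun ⟨i, j⟩ => by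
    ext r k
    have h1 : (B (i, j) * X) r k = (B (i, j) * B (k, 0)) r b := by simp [X, Matrix.mul_apply]
    rw [h1]
    by_cases hjk : j = k
    · subst hjk
      rw [hBmul, Matrix.mul_single_apply_same, mul_one]
      rfl
    · rw [hBzero _ _ _ _ hjk, Matrix.mul_single_apply_of_ne (hbj := Ne.symm hjk),
        Matrix.zero_apply]
  refine ⟨X, fun hdet => ?_, fun g => ?_⟩
  · obtain ⟨w, hw, hXw⟩ := Matrix.exists_mulVec_eq_zero_iff.2 hdet
    have hwk : ∀ k, w k = 0 := fun k => by
      have h1 : B (0, k) *ᵥ (X *ᵥ w) = 0 := by rw [hXw, mulVec_zero]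
      rw [mulVec_mulVec, hBX, ← mulVec_mulVec] at h1
      have h2 := congrFun h1 r
      simp only [mulVec, dotProduct, Fin.sum_univ_two, Pi.zero_apply] at h2
      fin_cases k <;> simp [Matrix.single, X] at h2 <;> tauto
    exact hw (funext hwk)
  · rw [← hΦg]
    conv_lhs => rw [show ρ₁ g = ∑ p : Fin 2 × Fin 2, ρ₁ g p.1 p.2 • Matrix.single p.1 p.2 1 from by
      ext i j; fin_cases i <;> fin_cases j <;> simp [Fintype.sum_prod_type, Fin.sum_univ_two]]
    simp only [Φ, LinearMap.coe_mk, AddHom.coe_mk, Finset.mul_sum, Finset.sum_mul, mul_smul_comm,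
      smul_mul_assoc, hBX]

end Fermat.Agent.TwoAdic.Module
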