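import Fermat.Agent.Arith.Frobenius
import Fermat.Agent.TwoAdic.Deform.Setting

/-!
# The line at `2` and inertia relations from the points

`A` is embedded in a product of fields by `π`. If at every point some nonzero functional is fixed
by inertia at a place over `2` and some inertia element is residually the nontrivial unipotent,
then one line `(x, 1)` over `A` is fixed by inertia and stable under the decomposition group.
-/

set_option autoImplicit false

noncomputable section

namespace Fermat.Agent.TwoAdic.Module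

open Matrix Fermat.Agent.Deform
open Fermat.Agent.TwoAdic.Deform (FixesLine StableLine lineVal)
open scoped Pointwise

variable {A : Type} [CommRing A] {ι : Type*} {K : ι → Type*} [∀ i, Field (K i)]
  (π : ∀ i, A →+* K i) (hπ : ∀ a : A, (∀ i, π i a = 0) → a = 0)

include hπ in
theorem eq_of_forall_point {a b : A} (h : ∀ i, π i a = π i b) : a = b :=
  sub_eq_zero.1 (hπ _ fun i => by rw [map_sub, h, sub_self])

/-- A functional `f` fixed by `T` is proportional to `(x, 1)` when `T 0 1` is a unit. -/
theorem fixed_eq {R : Type*} [CommRing R] {T : Matrix (Fin 2) (Fin 2) R} {x : R} {u : R}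
    (hu : u * T 0 1 = 1) (hx : x = -(u * (T 1 1 - 1))) {f : Fin 2 → R} (hf : f ᵥ* T = f) :
    f 0 = x * f 1 := by
  have h := congrFun hf 1
  simp only [vecMul, dotProduct, Fin.sum_univ_two] at h
  rw [hx]
  linear_combination u * h - f 0 * hu

/-- The position of the line fixed by an element with unit upper right entry. -/
def linePos (T : M2 A) (u : A) : A := -(u * (T 1 1 - 1))

variable {G : Type*} [Group G] (R : G →* M2 A)

include hπ in
theorem fixesLine_of_points {σ₀ σ : G} {u : A} (hu : u * R σ₀ 0 1 = 1)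
    (h : ∀ i, ∃ f : Fin 2 → K i, f ≠ 0 ∧ f ᵥ* (R σ₀).map (π i) = f ∧ f ᵥ* (R σ).map (π i) = f) :
    FixesLine (linePos (R σ₀) u) (R σ) := by
  set x := linePos (R σ₀) u
  suffices ∀ i, π i (x * (R σ 0 0 - 1) + R σ 1 0) = 0 ∧ π i (x * R σ 0 1 + (R σ 1 1 - 1)) = 0 from
    ⟨hπ _ fun i => (this i).1, hπ _ fun i => (this i).2⟩
  intro i
  obtain ⟨f, hf, hf0, hfσ⟩ := h i
  have h0 : f 0 = π i x * f 1 :=
    fixed_eq (u := π i u) (by rw [map_apply, ← map_mul, hu, map_one])
      (by simp [x, linePos, map_apply]) hf0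
  have h1 : f 1 ≠ 0 := fun h1 => hf (funext fun j => by
    fin_cases j
    · simp [h0, h1]
    · simp [h1])
  have ha := congrFun hfσ 0
  have hb := congrFun hfσ 1
  simp only [vecMul, dotProduct, Fin.sum_univ_two, map_apply, h0] at ha hb
  constructor <;> refine mul_right_cancel₀ h1 ?_ <;> simp only [map_add, map_sub, map_mul, map_one]
  · linear_combination ha
  · linear_combination hb

variable {σ₀ : G} {u : A} {I : Subgroup G}

theorem stableLine_of_fixesLine (hu : u * R σ₀ 0 1 = 1)
    (hI : ∀ σ ∈ I, FixesLine (linePos (R σ₀) u) (R σ)) {g : G} (hg : g * σ₀ * g⁻¹ ∈ I) :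
    StableLine (linePos (R σ₀) u) (R g) := by
  set x := linePos (R σ₀) u
  set f : Fin 2 → A := ![x * R g 0 0 + R g 1 0, x * R g 0 1 + R g 1 1]
  have hf : f ᵥ* R σ₀ = f := by
    have hc := hI _ hg
    have e : R (g * σ₀ * g⁻¹) * R g = R g * R σ₀ := by
      rw [← map_mul, ← map_mul, inv_mul_cancel_right]
    set C := R (g * σ₀ * g⁻¹)
    have hx : (![x, 1] : Fin 2 → A) ᵥ* C = ![x, 1] := by
      ext j
      fin_cases j <;> simp [vecMul, dotProduct, Fin.sum_univ_two]
      · linear_combination hc.1
      · linear_combination hc.2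
    have hf' : f = (![x, 1] : Fin 2 → A) ᵥ* R g := by
      ext j
      fin_cases j <;> simp [f, vecMul, dotProduct, Fin.sum_univ_two]
    rw [hf', vecMul_vecMul, ← e, ← vecMul_vecMul, hx]
  have := fixed_eq (x := x) hu rfl hf
  simp only [f, Matrix.cons_val_zero, Matrix.cons_val_one] at this
  unfold StableLine
  linear_combination this

section Galois

open Fermat.Agent.Arith

variable (R : Gal →* M2 A) {P : ValuationSubring QBar} {σ₀ : Gal}

include hπ in
/-- The line at a place from a functional fixed by inertia at every point. -/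
theorem exists_line (hσ₀ : σ₀ ∈ P.inertiaSubgroupIn ℚ) (hu : IsUnit (R σ₀ 0 1))
    (h : ∀ i, ∃ f : Fin 2 → K i, f ≠ 0 ∧
      ∀ σ ∈ P.inertiaSubgroupIn ℚ, f ᵥ* (R σ).map (π i) = f) :
    ∃ x : A, (∀ σ ∈ P.inertiaSubgroupIn ℚ, FixesLine x (R σ)) ∧
      ∀ σ ∈ P.decompositionSubgroup ℚ, StableLine x (R σ) := by
  obtain ⟨u, hu⟩ := hu.exists_left_inv
  have hI : ∀ σ ∈ P.inertiaSubgroupIn ℚ, FixesLine (linePos (R σ₀) u) (R σ) := fun σ hσ =>
    fixesLine_of_points π hπ R hu fun i =>
      (h i).imp fun f hf => ⟨hf.1, hf.2 σ₀ hσ₀, hf.2 σ hσ⟩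
  refine ⟨_, hI, fun g hg => stableLine_of_fixesLine R hu hI ?_⟩
  have := (mem_inertia_smul_iff (g := g)).2 hσ₀
  rwa [show g • P = P from hg] at this

/-- The value on the line is the eigenvalue of the functional at every point. -/
theorem map_lineVal {x : A} (hu : IsUnit (R σ₀ 0 1)) (hx : FixesLine x (R σ₀)) {g : Gal} {i : ι}
    {f : Fin 2 → K i} (hf : f ≠ 0) (hf₀ : f ᵥ* (R σ₀).map (π i) = f) {c : K i}
    (hfg : f ᵥ* (R g).map (π i) = c • f) : π i (lineVal x (R g)) = c := by
  obtain ⟨u, hu⟩ := hu.exists_left_inv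
  have hxu : x = linePos (R σ₀) u := by
    have h1 := hx.2
    simp only [linePos]
    linear_combination u * h1 - x * hu
  have h0 : f 0 = π i x * f 1 :=
    fixed_eq (u := π i u) (by rw [map_apply, ← map_mul, hu, map_one])
      (by simp [hxu, linePos, map_apply]) hf₀
  have h1 : f 1 ≠ 0 := fun h1 => hf (funext fun j => by
    fin_cases j
    · simp [h0, h1]
    · simp [h1])
  have hb := congrFun hfg 1
  simp only [vecMul, dotProduct, Fin.sum_univ_two, map_apply, h0, Pi.smul_apply, smul_eq_mul] at hb
  refine mul_right_cancel₀ h1 ?_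
  simp only [lineVal, map_add, map_mul]
  linear_combination hb

end Galois

include hπ in
/-- Trace and determinant of a matrix from the points. -/
theorem trace_det_of_points {T : M2 A} {t d : A} (ht : ∀ i, (T.map (π i)).trace = π i t)
    (hd : ∀ i, (T.map (π i)).det = π i d) : T.trace = t ∧ T.det = d :=
  ⟨eq_of_forall_point π hπ fun i => by rw [← ht i, AddMonoidHom.map_trace (π i)],
    eq_of_forall_point π hπ fun i => by rw [← hd i, RingHom.map_det, RingHom.mapMatrix_apply]⟩

/-- `det (T - 1) = det T - trace T + 1`. -/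
theorem det_sub_one_eq (T : M2 A) : (T - 1).det = T.det - T.trace + 1 := by
  simp only [det_fin_two, trace_fin_two, Matrix.sub_apply, one_apply_eq,
    one_apply_ne (show (0 : Fin 2) ≠ 1 by decide), one_apply_ne (show (1 : Fin 2) ≠ 0 by decide)]
  ring

end Fermat.Agent.TwoAdic.Module
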