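import Fermat.Agent.TwoAdic.Module.Interface
import Fermat.Agent.TwoAdic.Module.Inputs
import Fermat.Agent.RT.Glue.Inertia
import Fermat.Agent.RT.Glue.Transfer
import Fermat.Agent.RT.GammaH.Twist
import Fermat.Agent.RT.Assembly.LevelChar
import Fermat.Agent.NewformLocal.NotEisenstein

/-!
# The representation of a newform at the primes of a squarefree level, for `p = 2`

For one eigen representation of a newform: inertia at a prime exactly dividing its level or
prime to it, the squared trace of Frobenius at a prime exactly dividing it, and the trace of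
inertia at a prime where it is a twist.
-/

set_option autoImplicit false

noncomputable section

namespace Fermat.Agent.TwoAdic.Module

open IsLocalRing Matrix ModularFormClass
open Fermat.Agent.GaloisReps (AbsGal FullHecke HeckeGaloisModel)
open Fermat.Agent.NewformLocal (UnipotentAt ToricSquareAt toricOp levelPrimes)

variable {M : ℕ} [NeZero M] (D : HeckeGaloisModel M 2)
  {R : Type} [CommRing R] [IsDomain R] [IsDiscreteValuationRing R] [CharZero R]
  (ι : ℤ_[2] →+* R) (θ : FullHecke M →+* R)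

/-- The eigen representation in matrices. -/
def eigenHom : AbsGal →* Matrix (Fin 2) (Fin 2) R :=
  (LinearMap.toMatrixAlgEquiv (D.eigenBasis θ)).toMonoidHom.comp (D.eigenAction ι θ)

theorem eigenHom_apply (σ : AbsGal) : eigenHom D ι θ σ = D.eigenMatrix ι θ σ := rfl

theorem trace_eigenHom (σ : AbsGal) :
    (eigenHom D ι θ σ).trace = LinearMap.trace R _ (D.eigenAction ι θ σ) := by
  rw [LinearMap.trace_eq_matrix_trace R (D.eigenBasis θ)]
  rfl

theorem det_eigenHom (σ : AbsGal) :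
    (eigenHom D ι θ σ).det = LinearMap.det (D.eigenAction ι θ σ) := by
  rw [← LinearMap.det_toMatrix (D.eigenBasis θ)]
  rfl

/-- At a prime `v` not dividing the level, or where the model is unipotent, inertia has trace `2`
and determinant `1`. -/
theorem trace_det_inertia {v : ℕ} (hv : v.Prime) (hv2 : v ≠ 2)
    (hU : v ∣ M → UnipotentAt D v) {A : ValuationSubring (AlgebraicClosure ℚ)}
    (hA : A.LiesOverPrime v) {σ : AbsGal} (hσ : σ ∈ A.inertiaSubgroupIn ℚ) :
    (eigenHom D ι θ σ).trace = 2 ∧ (eigenHom D ι θ σ).det = 1 := by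
  refine RT.Glue.trace_det_of_unipotent ?_
  have hsq : (D.eigenAction ι θ σ - 1) ^ 2 = 0 := by
    have hgal : (D.gal σ - 1) ^ 2 = 0 := by
      by_cases h : v ∣ M
      · exact hU h A hA σ hσ
      · rw [D.gal_unramified v hv (fun h' => (hv.dvd_mul.1 h').elim h fun h'' =>
          hv2 ((Nat.prime_dvd_prime_iff_eq hv Nat.prime_two).1 h'')) A hA σ hσ, sub_self,
          zero_pow two_ne_zero]
    refine LinearMap.ext fun w => Subtype.ext ?_
    have h1 := congrArg ι.mapMatrix hgal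
    rw [pow_two, map_mul, map_sub, map_one, map_zero, RingHom.mapMatrix_apply] at h1
    have h2 := congrArg (fun m : Matrix (Fin D.d) (Fin D.d) R => m.mulVec w.1) h1
    simp only [Matrix.zero_mulVec, ← Matrix.mulVec_mulVec, Matrix.sub_mulVec,
      Matrix.one_mulVec, Matrix.mulVec_sub] at h2
    simp only [pow_two, Module.End.mul_apply, LinearMap.sub_apply, Module.End.one_apply,
      AddSubgroupClass.coe_sub, GaloisReps.HeckeGaloisModel.coe_eigenAction,
      LinearMap.zero_apply, ZeroMemClass.coe_zero, Matrix.mulVec_sub] at h2 ⊢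
    exact h2
  rw [show eigenHom D ι θ σ = LinearMap.toMatrixAlgEquiv (D.eigenBasis θ) (D.eigenAction ι θ σ)
    from rfl, ← map_one (LinearMap.toMatrixAlgEquiv (D.eigenBasis θ)), ← map_sub, ← map_pow, hsq,
    map_zero]

variable {g : CuspForm (CongruenceSubgroup.Gamma0 M) 2} (hg : g.IsNewform)
  (j : R →+* ℂ) (hj : Function.Injective j)
  (hlink : ∀ t, j (θ t) = ConductorLevel.eigenChar hg.1 ∅ t)
  (h2R : (2 : R) ∈ maximalIdeal R)

include hg hlink h2R in
/-- At a prime dividing the level exactly once the squared trace of Frobenius is `(v + 1) ^ 2`. -/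
theorem trace_sq_frobenius {v : ℕ} (hv : v.Prime) (hv2 : v ≠ 2) (hvM : v ∣ M)
    (hU : UnipotentAt D v) (hT : ToricSquareAt D v) {A : ValuationSubring (AlgebraicClosure ℚ)}
    (hA : A.LiesOverPrime v) {σ : AbsGal} (hσ : A.IsFrobeniusAt σ v) :
    (eigenHom D ι θ σ).trace ^ 2 = ((v : R) + 1) ^ 2 := by
  have hR : M / v ∣ M := Nat.div_dvd_of_dvd hvM
  have hRq : M / v * v = M := Nat.div_mul_cancel hvM
  have : NeZero (M / v) := ⟨fun h => NeZero.ne M (by rw [← hRq, h, zero_mul])⟩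
  obtain ⟨t, ht, htg⟩ := NewformLocal.exists_killsOld_ne_zero hg hR
    (Nat.div_lt_self (Nat.pos_of_ne_zero (NeZero.ne M)) hv.one_lt).ne
  obtain ⟨ℓ, hℓ, hℓT, hne⟩ :=
    NewformLocal.exists_coeff_ne_succ hg.1 (M * 2).primeFactors
  have hℓN : ¬ ℓ ∣ M * 2 := fun h => hℓT (Nat.mem_primeFactors.mpr
    ⟨hℓ, h, mul_ne_zero (NeZero.ne M) two_ne_zero⟩)
  have hθt : θ (toricOp t hℓ) ≠ 0 := fun h0 => by
    have h2 := hlink (toricOp t hℓ)
    rw [h0, map_zero, toricOp, map_mul, map_sub, map_natCast,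
      NewformLocal.eigenChar_toFull, eq_comm, mul_eq_zero] at h2
    have hℓM : ¬ ℓ ∣ M := fun h => hℓN (dvd_mul_of_dvd_left h 2)
    have h3 : ConductorLevel.eigenChar hg.1 ∅ (HeckeDuality.heckeOp M 2 ℓ hℓ) = qCoeff g ℓ := by
      rw [HeckeDuality.heckeOp, dif_neg hℓM]
      exact ConductorLevel.eigenChar_T hg.1 hℓ hℓM _
    rw [h3, sub_eq_zero, Nat.cast_add, Nat.cast_one] at h2
    exact h2.elim htg hne
  have key := NewformLocal.charpoly_frobenius_bad D ι θ h2R hv hv2 hR hRq hU hT t ht hℓ hℓN hθt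
    hA hσ
  rw [trace_eigenHom, LinearMap.trace_eq_matrix_trace R (D.eigenBasis θ),
    Matrix.trace_eq_neg_charpoly_coeff, LinearMap.charpoly_toMatrix]
  rcases key with h | h <;> rw [h] <;> simp [Fintype.card_fin]
  ring

include hg hlink h2R in
/-- The trace and determinant of Frobenius at a good prime. -/
theorem trace_det_frobenius {ℓ : ℕ} (hℓ : ℓ.Prime) (hℓM : ¬ ℓ ∣ M) (hℓ2 : ℓ ≠ 2)
    {A : ValuationSubring (AlgebraicClosure ℚ)} (hA : A.LiesOverPrime ℓ) {σ : AbsGal}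
    (hσ : A.IsFrobeniusAt σ ℓ) :
    j (eigenHom D ι θ σ).trace = qCoeff g ℓ ∧ (eigenHom D ι θ σ).det = (ℓ : R) := by
  have hN : ¬ ℓ ∣ M * 2 := fun h => (hℓ.dvd_mul.1 h).elim hℓM fun h' =>
    hℓ2 ((Nat.prime_dvd_prime_iff_eq hℓ Nat.prime_two).1 h')
  have key := D.charpoly_eigenAction_frobenius ι θ GaloisReps.frobeniusDensity h2R hℓ hN hA hσ
  refine ⟨?_, ?_⟩
  · rw [trace_eigenHom, LinearMap.trace_eq_matrix_trace R (D.eigenBasis θ),
      Matrix.trace_eq_neg_charpoly_coeff, LinearMap.charpoly_toMatrix, key,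
      ← ConductorLevel.eigenChar_T hg.1 hℓ hℓM (Set.notMem_empty ℓ), ← hlink]
    simp [Fintype.card_fin, HeckeDuality.heckeOp, dif_neg hℓM, Polynomial.coeff_X_pow]
  · rw [det_eigenHom, LinearMap.det_eq_sign_charpoly_coeff, key, D.finrank_eigenspace_domain θ]
    simp

include h2R in
/-- The determinant of inertia away from `2`. -/
theorem det_inertia_eq_one {v : ℕ} (hv : v.Prime) (hv2 : v ≠ 2)
    {A : ValuationSubring (AlgebraicClosure ℚ)} (hA : A.LiesOverPrime v) {σ : AbsGal}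
    (hσ : σ ∈ A.inertiaSubgroupIn ℚ) : (eigenHom D ι θ σ).det = 1 := by
  rw [det_eigenHom, D.det_eigenAction_of_roots ι θ h2R (q := 1) fun n ζ hζ => by
    rw [pow_one]
    exact Arith.inertia_root hA hv hσ hζ fun h =>
      hv2 ((Nat.prime_dvd_prime_iff_eq hv Nat.prime_two).1 (hv.dvd_of_dvd_pow h)),
    Nat.cast_one]

variable [IsAdicComplete (maximalIdeal R) R] [Finite (ResidueField R)]

set_option maxHeartbeats 800000 in
include hg hj hlink h2R in
/-- The trace of inertia at `v` when the twist of `g` away from `v` has nebentypus ramified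
at `v`. -/
theorem trace_inertia_twist {L v : ℕ} [NeZero L] [Fact v.Prime] (hL : Squarefree L) (hvL : v ∣ L)
    (hv2 : v ≠ 2) (hdvd : M ∣ L ^ 2)
    (hE : ∀ (R' : ℕ) [NeZero R'], TraceInertiaTwo v R' M g)
    (hC : haveI : NeZero (v ^ 2 * (L / v) ^ 2) :=
        ⟨by rw [← mul_pow, Nat.mul_div_cancel' hvL]; exact pow_ne_zero 2 (NeZero.ne L)⟩
      GaloisReps.CongruenceProperty (v ^ 2 * (L / v) ^ 2) 2)
    (et : DirichletCharacter ℂ L) (hord : ∃ k : ℕ, et ^ 2 ^ k = 1)
    (hne : ¬ IsTrivialAt (et ^ 2) v)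
    {S : Finset ℕ} (hS : ∀ q : ℕ, q.Prime → q ∣ L → q ∈ S) (h2S : 2 ∈ S)
    (hT : HasPartialTwist et S v g)
    (hirr : (D.rep ι θ h2R).residual.IsAbsolutelyIrreducible)
    {A : ValuationSubring (AlgebraicClosure ℚ)} (hA : A.LiesOverPrime v)
    (hres : ∀ σ ∈ A.inertiaSubgroupIn ℚ, (eigenHom D ι θ σ).trace ∈ maximalIdeal R)
    {σ : AbsGal} (hσ : σ ∈ A.inertiaSubgroupIn ℚ) {u : (ZMod L)ˣ}
    (hu : ((u : ZMod L).cast : ZMod (L / v)) = 1)
    (hua : ∀ μ : AlgebraicClosure ℚ, μ ^ v = 1 →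
      σ μ = μ ^ ((u : ZMod L).cast : ZMod v).val) :
    j (eigenHom D ι θ σ).trace = (et u)⁻¹ + et u := by
  have hv : v.Prime := Fact.out
  obtain ⟨ε, F, a, hε, hF, hFa, hF0, hFrec⟩ := hT
  have hcop : v.Coprime (L / v) :=
    hv.coprime_iff_not_dvd.2 (RT.GammaH.coprime_div_of_squarefree hL hv hvL)
  have : NeZero ((L / v) ^ 2) := ⟨pow_ne_zero _ (Nat.div_ne_zero_iff_of_dvd hvL |>.2
    ⟨NeZero.ne L, hv.ne_zero⟩)⟩
  have hlift : ∀ w : (ZMod v)ˣ, ∃ z : (ZMod L)ˣ, ε (w : ZMod v) = et z := fun w => by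
    obtain ⟨z, hz1, hz2⟩ := RT.Assembly.exists_unit_crt hvL hcop w
    refine ⟨z, ?_⟩
    rw [← hε z hz1, ← hz2, ZMod.unitsMap_val]
  have hord' : ∃ k : ℕ, ε⁻¹ ^ 2 ^ k = 1 := by
    obtain ⟨k, hk⟩ := hord
    refine ⟨k, ?_⟩
    rw [inv_pow, inv_eq_one]
    refine MulChar.ext fun w => ?_
    obtain ⟨z, hz⟩ := hlift w
    rw [MulChar.pow_apply_coe, MulChar.one_apply_coe, hz, ← MulChar.pow_apply_coe, hk,
      MulChar.one_apply_coe]
  have hsq : ε⁻¹ ^ 2 ≠ 1 := by
    rw [inv_pow, ne_eq, inv_eq_one]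
    intro h
    refine hne fun z hz => ?_
    have hw : IsUnit ((z : ZMod L).cast : ZMod v) := by
      rw [← ZMod.castHom_apply (h := hvL)]
      exact z.isUnit.map _
    rw [MulChar.pow_apply_coe, ← hε z hz, ← hw.unit_spec, ← MulChar.pow_apply_coe, h,
      MulChar.one_apply_coe]
  set a' : (ZMod v)ˣ := Units.map (ZMod.castHom hvL (ZMod v)).toMonoidHom u
  have ha' : (a' : ZMod v) = (u : ZMod L).cast := rfl
  have key := hE ((L / v) ^ 2) hv2
    (fun h => RT.GammaH.coprime_div_of_squarefree hL hv hvL (hv.dvd_of_dvd_pow h))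
    (by rw [← mul_pow, Nat.mul_div_cancel' hvL]; exact hdvd) hg hC ε⁻¹ hsq hord' F a
    (by rw [inv_inv]; exact hF) hFa hF0 S
    (fun w hw h => (hw.dvd_mul.1 h).elim
      (fun h => (hw.dvd_mul.1 h).elim (fun h => hS w hw (h.trans hvL))
        fun h => hS w hw ((hw.dvd_of_dvd_pow h).trans (Nat.div_dvd_of_dvd hvL)))
      fun h => (Nat.prime_dvd_prime_iff_eq hw Nat.prime_two).1 h ▸ h2S)
    (fun ℓ hℓ hℓS n => by rw [inv_inv]; exact hFrec ℓ hℓ hℓS n)
    R h2R j hj (D.rep ι θ h2R) hirr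
    (fun ℓ hℓ hℓS A' hA' s hs => by
      have h := trace_det_frobenius D ι θ hg j hlink h2R hℓ
        (fun hd => hℓS (hS ℓ hℓ (hℓ.dvd_of_dvd_pow (hd.trans hdvd))))
        (fun h => hℓS (h ▸ h2S)) hA' hs
      rw [trace_eigenHom, det_eigenHom] at h
      exact h)
    A hA (fun σ' hσ' => ⟨by
        show LinearMap.det (D.eigenAction ι θ σ') = 1
        rw [← det_eigenHom]
        exact det_inertia_eq_one D ι θ h2R hv hv2 hA hσ',
      by
        show LinearMap.trace R _ (D.eigenAction ι θ σ') - 2 ∈ maximalIdeal R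
        rw [← trace_eigenHom]
        exact sub_mem (hres σ' hσ') h2R⟩)
    σ hσ a' (fun μ hμ => by rw [hua μ hμ, ha'])
  rw [trace_eigenHom]
  refine key.trans ?_
  rw [inv_inv, MulChar.inv_apply_eq_inv', ha', hε u hu]

end Fermat.Agent.TwoAdic.Module
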