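import Fermat.Agent.RT.Glue.Core

/-!
# Gluing pointwise representations with a given determinant

As `Glue.exists_glue`, without invertibility of `2` in the coefficient ring: the determinant is
given, and `2` is only required to be nonzero in the fields.
-/

set_option autoImplicit false

noncomputable section

open IsLocalRing Matrix

namespace Fermat.Agent.RT.Glue

/-- The determinant of a sum of two matrices of size two. -/
theorem det_add_eq {R : Type*} [CommRing R] (X Y : Matrix (Fin 2) (Fin 2) R) :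
    (X + Y).det = X.det + Y.det + (X.trace * Y.trace - (X * Y).trace) := by
  simp [Matrix.det_fin_two, Matrix.trace_fin_two, Matrix.mul_apply, Fin.sum_univ_two]
  ring

variable {A : Type} [CommRing A] [IsLocalRing A] [IsAdicComplete (maximalIdeal A) A]
  {G : Type} [Group G] {ι : Type} (K : ι → Type) [∀ i, Field (K i)] (π : ∀ i, A →+* K i)
  (ρ : ∀ i, G →* Matrix (Fin 2) (Fin 2) (K i)) (tA : G → A)
  (rbar : G →* Matrix (Fin 2) (Fin 2) (ResidueField A))

set_option maxHeartbeats 1000000 in
/-- The representation over `A`. -/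
theorem exists_glue_of_det (hchar : ∀ i, (2 : K i) ≠ 0) (dA : G → A)
    (hdet : ∀ i σ, (ρ i σ).det = π i (dA σ)) (hresdet : ∀ σ, (rbar σ).det = residue A (dA σ))
    (hπ : ∀ x : A, (∀ i, π i x = 0) → x = 0)
    (htr : ∀ i σ, (ρ i σ).trace = π i (tA σ))
    (hres : ∀ σ, (rbar σ).trace = residue A (tA σ))
    (hspan : Submodule.span (ResidueField A) (Set.range rbar) = ⊤) :
    ∃ R : G →* Matrix (Fin 2) (Fin 2) A,
      (∀ σ, (R σ).map (residue A) = rbar σ) ∧
      (∀ σ, (R σ).trace = tA σ) ∧
      (∀ σ, (R σ).det = dA σ) ∧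
      (∀ i σ, (R σ).map (π i) = 1 ↔ ρ i σ = 1) ∧
      ∀ (I : Ideal A) σ, (∀ g, tA (σ * g) - tA g ∈ I) →
        ∀ a b, R σ a b - (1 : Matrix (Fin 2) (Fin 2) A) a b ∈ I := by
  classical
  let τ : MonoidAlgebra A G →ₗ[A] A :=
    (Finsupp.linearCombination A tA).comp (MonoidAlgebra.coeffLinearEquiv A).toLinearMap
  have hτ1 : ∀ (g : G) (c : A), τ (MonoidAlgebra.single g c) = c * tA g := by
    intro g c
    show Finsupp.linearCombination A tA (MonoidAlgebra.coeff (MonoidAlgebra.single g c)) = _
    rw [MonoidAlgebra.coeff_single, Finsupp.linearCombination_single, smul_eq_mul]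
  let Φ : ∀ i, MonoidAlgebra A G →+* Matrix (Fin 2) (Fin 2) (K i) := fun i =>
    MonoidAlgebra.liftNCRingHom ((Matrix.scalar (Fin 2)).comp (π i)) (ρ i)
      fun x y => Matrix.scalar_commute _ (fun _ => Commute.all _ _) _
  let Φb : MonoidAlgebra A G →+* Matrix (Fin 2) (Fin 2) (ResidueField A) :=
    MonoidAlgebra.liftNCRingHom ((Matrix.scalar (Fin 2)).comp (residue A)) rbar
      fun x y => Matrix.scalar_commute _ (fun _ => Commute.all _ _) _
  have hΦ1 : ∀ i g (c : A), Φ i (MonoidAlgebra.single g c) = π i c • ρ i g := by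
    intro i g c
    simp [Φ, MonoidAlgebra.liftNCRingHom, Matrix.smul_eq_diagonal_mul]
  have hΦb1 : ∀ g (c : A), Φb (MonoidAlgebra.single g c) = residue A c • rbar g := by
    intro g c
    simp [Φb, MonoidAlgebra.liftNCRingHom, Matrix.smul_eq_diagonal_mul]
  have htrΦ : ∀ i w, (Φ i w).trace = π i (τ w) := by
    intro i w
    induction w using MonoidAlgebra.induction_linear with
    | zero => simp
    | add x y hx hy => rw [map_add, map_add, Matrix.trace_add, hx, hy, map_add]
    | single g c => rw [hΦ1, hτ1, Matrix.trace_smul, htr, map_mul, smul_eq_mul]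
  have htrb : ∀ w, (Φb w).trace = residue A (τ w) := by
    intro w
    induction w using MonoidAlgebra.induction_linear with
    | zero => simp
    | add x y hx hy => rw [map_add, map_add, Matrix.trace_add, hx, hy, map_add]
    | single g c => rw [hΦb1, hτ1, Matrix.trace_smul, hres, map_mul, smul_eq_mul]
  have hsurj : Function.Surjective Φb := by
    intro X
    have hX : X ∈ Submodule.span (ResidueField A) (Set.range rbar) := by
      rw [hspan]; trivial
    induction hX using Submodule.span_induction with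
    | mem x hx =>
      obtain ⟨g, rfl⟩ := hx
      exact ⟨MonoidAlgebra.single g 1, by rw [hΦb1, map_one, one_smul]⟩
    | zero => exact ⟨0, map_zero _⟩
    | add x y _ _ hx hy =>
      obtain ⟨a, ha⟩ := hx; obtain ⟨b, hb⟩ := hy
      exact ⟨a + b, by rw [map_add, ha, hb]⟩
    | smul c x _ hx =>
      obtain ⟨a, ha⟩ := hx
      obtain ⟨c', rfl⟩ := residue_surjective c
      refine ⟨MonoidAlgebra.single 1 c' * a, ?_⟩
      rw [map_mul, hΦb1, map_one rbar, ha, smul_mul_assoc, one_mul]
  obtain ⟨x, hx⟩ := hsurj !![1, 0; 0, 0]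
  obtain ⟨y, hy⟩ := hsurj !![0, 0; 1, 0]
  obtain ⟨z₀, hz₀⟩ := hsurj !![0, 1; 0, 0]
  have hdetΦ : ∀ w, ∃ d : A, residue A d = (Φb w).det ∧ ∀ i, π i d = (Φ i w).det := by
    intro w
    induction w using MonoidAlgebra.induction_linear with
    | zero => exact ⟨0, by simp, fun i => by simp⟩
    | single g c =>
      refine ⟨c ^ 2 * dA g, ?_, fun i => ?_⟩
      · rw [hΦb1, Matrix.det_smul, hresdet, map_mul, map_pow, Fintype.card_fin]
      · rw [hΦ1, Matrix.det_smul, hdet, map_mul, map_pow, Fintype.card_fin]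
    | add p q hp hq =>
      obtain ⟨a, ha, ha'⟩ := hp
      obtain ⟨b, hb, hb'⟩ := hq
      refine ⟨a + b + (τ p * τ q - τ (p * q)), ?_, fun i => ?_⟩
      · simp only [map_add, map_sub, map_mul, ha, hb, ← htrb]
        exact (det_add_eq _ _).symm
      · simp only [map_add, map_sub, map_mul, ha', hb', ← htrΦ]
        exact (det_add_eq _ _).symm
  set t := τ x with htdef
  obtain ⟨d, hdres, hdΦ⟩ := hdetΦ x
  have htb : residue A t = 1 := by rw [← htrb, hx]; simp [Matrix.trace_fin_two]
  have hdb : residue A d = 0 := by rw [hdres, hx]; simp [Matrix.det_fin_two]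
  -- the root
  let P : Polynomial A := Polynomial.X ^ 2 - Polynomial.C t * Polynomial.X + Polynomial.C d
  have hP : P.Monic := by simp only [P]; monicity!
  obtain ⟨α, hα, hα1⟩ := HenselianRing.is_henselian (I := maximalIdeal A) P hP 1
    (by rw [← residue_eq_zero_iff]; simp [P, htb, hdb]) (by
      have : residue A (P.derivative.eval 1) = 1 := by
        simp [P, htb]
        try norm_num
      show IsUnit (residue A (P.derivative.eval 1))
      rw [this]; exact isUnit_one)
  have hαeq : α ^ 2 - t * α + d = 0 := by simpa [P, Polynomial.IsRoot] using hα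
  have hαb : residue A α = 1 := by
    rw [← sub_eq_zero, ← map_one (residue A), ← map_sub, residue_eq_zero_iff]; exact hα1
  have hu : IsUnit (2 * α - t) := by
    refine (residue_ne_zero_iff_isUnit _).1 ?_
    rw [map_sub, map_mul, htb, hαb, map_ofNat, mul_one]
    norm_num
  obtain ⟨u, hu'⟩ := hu
  obtain ⟨ui, hui⟩ : ∃ ui : A, ui * (2 * α - t) = 1 := ⟨↑u⁻¹, by rw [← hu', Units.inv_mul]⟩
  obtain ⟨e, he⟩ : ∃ e : MonoidAlgebra A G,
      e = MonoidAlgebra.single 1 ui * (x - MonoidAlgebra.single 1 (t - α)) := ⟨_, rfl⟩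
  have hΦs : ∀ i (c : A), Φ i (MonoidAlgebra.single 1 c) = π i c • 1 := fun i c => by
    rw [hΦ1, map_one]
  have hΦe : ∀ i, (Φ i e).trace = 1 ∧ (Φ i e).det = 0 := by
    intro i
    have hdet : (Φ i x).det = π i d := (hdΦ i).symm
    have ht' := htrΦ i x
    have hroot := congrArg (π i) hαeq
    simp only [map_add, map_sub, map_mul, map_pow, map_zero] at hroot
    have huinv : π i ui * (2 * π i α - π i t) = 1 := by
      rw [← map_ofNat (π i) 2, ← map_mul, ← map_sub, ← map_mul, hui, map_one]
    rw [Matrix.trace_fin_two] at ht'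
    rw [Matrix.det_fin_two] at hdet
    constructor
    · simp [he, map_mul, map_sub, hΦs, Matrix.trace_fin_two, Matrix.mul_apply, Fin.sum_univ_two]
      linear_combination (π i ui) * ht' + huinv
    · simp [he, map_mul, map_sub, hΦs, Matrix.det_fin_two, Matrix.mul_apply, Fin.sum_univ_two, -mul_eq_zero]
      linear_combination (π i ui) ^ 2 * (hdet - (π i t - π i α) * ht' + hroot)
  have hΦbe : Φb e = !![1, 0; 0, 0] := by
    have hub : residue A ui = 1 := by
      have := congrArg (residue A) hui
      rw [map_mul, map_sub, map_mul, htb, hαb, map_one, map_ofNat, mul_one] at this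
      rw [← this]; norm_num
    simp [he, map_mul, map_sub, hΦb1, hx, hub, htb, hαb]
  -- normalise `z`
  have h1e : (1 : Matrix (Fin 2) (Fin 2) (ResidueField A)) - !![1, 0; 0, 0] = !![0, 0; 0, 1] := by
    ext a b; fin_cases a <;> fin_cases b <;> simp
  set c := τ (e * z₀ * (1 - e) * y * e) with hcdef
  have hcb : residue A c = 1 := by
    rw [hcdef, ← htrb, map_mul, map_mul, map_mul, map_mul, map_sub, map_one, hΦbe, hy, hz₀, h1e]
    simp [Matrix.trace_fin_two, Matrix.mul_apply, Fin.sum_univ_two]
  obtain ⟨uc, huc⟩ := (residue_ne_zero_iff_isUnit c).1 (by rw [hcb]; exact one_ne_zero)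
  obtain ⟨z, hzdef⟩ : ∃ z : MonoidAlgebra A G, z = MonoidAlgebra.single 1 (↑uc⁻¹ : A) * z₀ :=
    ⟨_, rfl⟩
  have hc : ∀ i, (Φ i e * Φ i z * (1 - Φ i e) * Φ i y * Φ i e).trace = 1 := by
    intro i
    have h3 : π i (↑uc⁻¹ : A) * (Φ i (e * z₀ * (1 - e) * y * e)).trace = 1 := by
      rw [htrΦ, ← map_mul, ← hcdef, ← huc, Units.inv_mul, map_one]
    simpa [hzdef, map_mul, map_sub, map_one, hΦs, smul_mul_assoc, mul_smul_comm,
      Matrix.trace_smul] using h3
  have hΦbz : Φb z = !![0, 1; 0, 0] := by
    have hub : residue A (↑uc⁻¹ : A) = 1 := by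
      have := congrArg (residue A) (uc.inv_mul)
      rwa [map_mul, huc, hcb, map_one, mul_one] at this
    simp [hzdef, map_mul, hΦb1, hz₀, hub]
  let F : G → Matrix (Fin 2) (Fin 2) A := fun σ =>
    Matrix.of fun a b => τ (MonoidAlgebra.single σ 1 * munit e y z b a)
  have hF : ∀ i σ a b, π i (F σ a b) =
      (ρ i σ * munit (Φ i e) (Φ i y) (Φ i z) b a).trace := by
    intro i σ a b
    show π i (τ _) = _
    rw [← htrΦ, map_mul, munit_map, hΦ1, map_one, one_smul]
  have hmul : ∀ σ σ', F (σ * σ') = F σ * F σ' := by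
    intro σ σ'
    ext a b
    refine sub_eq_zero.1 (hπ _ fun i => ?_)
    rw [map_sub, Matrix.mul_apply, map_sum, sub_eq_zero, hF, map_mul (ρ i),
      coord_mul (hΦe i).1 (hΦe i).2 (hc i)]
    exact Finset.sum_congr rfl fun k _ => by rw [map_mul, hF, hF]
  have hone : F 1 = 1 := by
    ext a b
    refine sub_eq_zero.1 (hπ _ fun i => ?_)
    rw [map_sub, hF, map_one, one_mul, coord_one (hΦe i).1 (hΦe i).2, Matrix.one_apply]
    split_ifs <;> simp
  let R : G →* Matrix (Fin 2) (Fin 2) A :=
    { toFun := F, map_one' := hone, map_mul' := hmul }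
  have htrR : ∀ σ, (R σ).trace = tA σ := by
    intro σ
    show (F σ).trace = _
    rw [Matrix.trace_fin_two]
    show τ (_ * e) + τ (_ * (1 - e)) = _
    rw [← map_add, ← mul_add, add_sub_cancel, mul_one, hτ1, one_mul]
  refine ⟨R, fun σ => ?_, htrR, fun σ => sub_eq_zero.1 (hπ _ fun i => ?_), fun i σ => ⟨fun h => ?_, fun h => ?_⟩,
    fun I σ hI a b => ?_⟩
  · ext a b
    show residue A (τ _) = _
    rw [← htrb, map_mul, munit_map, hΦb1, map_one, one_smul, hΦbe, hy, hΦbz]
    fin_cases a <;> fin_cases b <;>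
      simp [munit, h1e, Matrix.trace_fin_two, Matrix.mul_apply, Fin.sum_univ_two]
  · have h1 := congrArg (π i) (htrR σ)
    have h2' := congrArg (π i) (htrR (σ * σ))
    rw [← htr, Matrix.trace_fin_two, Matrix.trace_fin_two, map_add] at h1 h2'
    rw [map_mul, map_mul] at h2'
    simp only [Matrix.mul_apply, Fin.sum_univ_two, map_add, map_mul] at h2'
    rw [map_sub, sub_eq_zero, ← hdet]
    refine mul_left_cancel₀ (hchar i) ?_
    rw [Matrix.det_fin_two, Matrix.det_fin_two, map_sub, map_mul, map_mul]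
    linear_combination (π i (R σ 0 0) + π i (R σ 1 1) + (ρ i σ 0 0 + ρ i σ 1 1)) * h1 - h2'
  · -- `ρ i σ` is determined by its coordinates
    have hco : ∀ a b, (ρ i σ * munit (Φ i e) (Φ i y) (Φ i z) b a).trace = if a = b then 1 else 0 := by
      intro a b
      rw [← hF, show π i (F σ a b) = ((R σ).map (π i)) a b from rfl, h, Matrix.one_apply]
    have hzero : ∀ Y : Matrix (Fin 2) (Fin 2) (K i), ((ρ i σ - 1) * Y).trace = 0 := by
      intro Y
      set f := munit (Φ i e) (Φ i y) (Φ i z)
      have hk : ∀ a b, ((ρ i σ - 1) * f b a).trace = 0 := fun a b => by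
        rw [sub_mul, one_mul, Matrix.trace_sub, hco, coord_one (hΦe i).1 (hΦe i).2, sub_self]
      have h11 := coord_mul (hΦe i).1 (hΦe i).2 (hc i) (ρ i σ - 1) Y
      have : ((ρ i σ - 1) * Y).trace =
          ((ρ i σ - 1) * Y * f 0 0).trace + ((ρ i σ - 1) * Y * f 1 1).trace := by
        rw [← Matrix.trace_add, ← mul_add]
        simp [f, munit]
      rw [this, h11, h11]
      simp [f, hk]
    refine sub_eq_zero.1 ?_
    ext a b
    have := hzero (Matrix.single b a 1)
    rw [Matrix.trace_mul_single] at this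
    simpa using this
  · ext a b
    rw [Matrix.map_apply, show R σ a b = F σ a b from rfl, hF, h, one_mul,
      coord_one (hΦe i).1 (hΦe i).2, Matrix.one_apply]
  · rw [← hone]
    show τ _ - τ _ ∈ I
    generalize munit e y z b a = w
    induction w using MonoidAlgebra.induction_linear with
    | zero => simp
    | add p q hp hq => rw [mul_add, mul_add, map_add, map_add, add_sub_add_comm]; exact I.add_mem hp hq
    | single g r =>
      rw [MonoidAlgebra.single_mul_single, MonoidAlgebra.single_mul_single, hτ1, hτ1, one_mul,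
        one_mul, ← mul_sub]
      exact I.mul_mem_left _ (hI g)

end Fermat.Agent.RT.Glue
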