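import Fermat.Agent.TwoAdic.Module.Big
import Fermat.Agent.TwoAdic.Module.Glue.NewPart
import Fermat.Agent.GaloisReps.Unconditional
import Fermat.Agent.Semistable.Torsion
import Fermat.Agent.Semistable.ToricTorsion

/-!
# The big datum on the models of `J₀(M)`

With the unconditional semistable inputs the exclusion of the new part at the odd primes of the
level outside the setting and the auxiliary primes follows from an odd residual trace of Frobenius.
-/

set_option autoImplicit false

noncomputable section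

open IsLocalRing

namespace Fermat.Agent.TwoAdic.Module

open GaloisReps (AbsGal HeckeGaloisModel heckeGaloisModel)
open NewformLocal (UnipotentAt)

local instance factTwoBigModel : Fact (Nat.Prime 2) := ⟨Nat.prime_two⟩

/-- The models at `p = 2`. -/
abbrev twoModel (M : ℕ) [NeZero M] : HeckeGaloisModel M 2 := heckeGaloisModel M 2

theorem unipotentAt_twoModel {v : ℕ} (M : ℕ) [NeZero M] (hv : v.Prime) (hv2 : v ≠ 2) (hvM : v ∣ M)
    (hsq : ¬ v ^ 2 ∣ M) : UnipotentAt (twoModel M) v :=
  GaloisReps.unipotentAt_heckeGaloisModel hv hv2 (Semistable.torsionUnipotentAt M hv hvM hsq)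

theorem semistableInputs_twoModel (L : ℕ) {v : ℕ} (hv : v.Prime) (hv2 : v ≠ 2) :
    SemistableInputs twoModel L v := fun M _ _ hvM hsq =>
  ⟨unipotentAt_twoModel M hv hv2 hvM hsq,
    Semistable.toricSquareAt M 2 (GaloisReps.congruenceProperty M 2) hv hv2 hsq⟩

variable {O : Type} [CommRing O] [IsDomain O] [IsDiscreteValuationRing O]
  [IsAdicComplete (maximalIdeal O) O] [Finite (ResidueField O)] [CharZero O]
  {L : ℕ} [NeZero L] {Δ : Type} [CommGroup Δ] [Finite Δ] {ψ : (ZMod L)ˣ →* Δ} {S : Finset ℕ}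
  {abar : ℕ → ResidueField O} {H : HeckeData L ψ S abar}
  {St : Deform.Setting O} {Lv : Deform.Level St} {Da : Deform.Aux St Lv} {n : ℕ} {g : Δ}
  [IsLocalRing H.algebra] [IsLocalHom (algebraMap O H.algebra)]
  {pt : ∀ θ : H.algebra →ₐ[O] KBar O, Point 2 H θ.toRingHom}

/-- The odd primes of the level outside the setting and the auxiliary primes have a Frobenius of
nonzero residual trace. -/
def OddTraceOutside (L : ℕ) (Lv : Deform.Level St) : Prop :=
  ∀ v : ℕ, v.Prime → v ∣ L → v ≠ 2 → v ∉ St.T → v ∉ Lv.Q →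
    ∃ A : ValuationSubring (AlgebraicClosure ℚ), A.LiesOverPrime v ∧
      ∃ φ : AbsGal, A.IsFrobeniusAt φ v ∧ (St.W.rb φ).trace ≠ 0

variable (G : Glued twoModel pt St.W.rb) (h : BigHyp H Da n g) (hodd : OddTraceOutside L Lv)
  (hE : ∀ (v R' M : ℕ) [Fact v.Prime] [NeZero R'] [NeZero M]
    (g : CuspForm (CongruenceSubgroup.Gamma0 M) 2), TraceInertiaTwo v R' M g)
  (hspan : Submodule.span (ResidueField O) (Set.range St.W.rb) = ⊤)
  (hline : ∀ (M : ℕ) [NeZero M], LineAtTwo St (twoModel M))

include G hodd in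
omit [IsAdicComplete (maximalIdeal O) O] [Finite (ResidueField O)] in
/-- At those primes the points of trivial component are old. -/
theorem Glued.not_dvd_of_oddTrace (θ : H.algebra →ₐ[O] KBar O) (v : ℕ) (hv : v.Prime)
    (hvL : v ∣ L) (hv2 : v ≠ 2) (hvT : v ∉ St.T) (hvQ : v ∉ Lv.Q)
    (htriv : TrivialComponent θ.toRingHom v) : ¬ v ∣ (pt θ).M := by
  obtain ⟨A, hA, φ, hφ, htr⟩ := hodd v hv hvL hv2 hvT hvQ
  exact G.not_dvd_of_residual (by simpa using two_mem_maximalIdeal St) hv hvL hv2
    (semistableInputs_twoModel L hv hv2) θ htriv hA hφ htr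

/-- **The big datum on the models.** -/
def Glued.bigDatumModel : Patch.BigDatum Da n :=
  G.bigDatum h (G.not_dvd_of_oddTrace hodd)
    (fun _ M _ hv hv2 hvM hsq => unipotentAt_twoModel M hv hv2 hvM hsq) hE hspan hline

/-- Frobenius has trace the Hecke operator. -/
theorem Glued.bigDatumModel_trace_frobenius {ℓ : ℕ} (hℓ : ℓ.Prime) (hℓS : ℓ ∉ S)
    {P : ValuationSubring (AlgebraicClosure ℚ)} (hP : P.LiesOverPrime ℓ) {σ : AbsGal}
    (hσ : P.IsFrobeniusAt σ ℓ) :
    ((G.bigDatumModel h hodd hE hspan hline).r σ).trace = TA H hℓ hℓS :=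
  G.bigDatum_trace_frobenius h _ _ hE hspan hline hℓ hℓS hP hσ

end Fermat.Agent.TwoAdic.Module
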