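import Mathlib.GroupTheory.GroupAction.Basic
import Mathlib.SetTheory.Cardinal.Order
import Fermat.Agent.RT.GammaH.LevelOps

/-!
# Corestriction when `S` has no fixed coset

Corestriction `Hom(Γ', A) → Hom(Γ, A)` for `Γ' ≤ Γ` normal when `Γ` has no elliptic element of
order 4: only `3` has to be invertible on `A`, and `-1` is required to act as zero.
-/

set_option autoImplicit false

noncomputable section

namespace Fermat.Agent.RT.GammaH

open Matrix.SpecialLinearGroup
open scoped MatrixGroups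

/-- `S` fixes no coset of `Γ`. -/
def SFree (Γ : Subgroup SL(2, ℤ)) : Prop := ∀ x : SL(2, ℤ) ⧸ Γ, ModularGroup.S • x ≠ x

theorem sFree_gammaH {M v : ℕ} {K : Subgroup (ZMod M)ˣ} (hv : v.Prime) (hvM : v ∣ M)
    (h4 : v % 4 = 3) : SFree (gammaH M K) := by
  have : Fact v.Prime := ⟨hv⟩
  intro x
  induction x using QuotientGroup.induction_on with | _ g => ?_
  rw [MulAction.Quotient.smul_coe, smul_eq_mul, Ne, QuotientGroup.eq]
  intro h
  have h' := inv_mem h
  rw [mul_inv_rev, inv_inv, ← mul_assoc] at h'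
  obtain ⟨hc, u, hu, ha⟩ := h'
  set s := g⁻¹ * ModularGroup.S * g with hs
  have htr : s 0 0 + s 1 1 = 0 := by
    rw [← Matrix.trace_fin_two, hs, coe_mul, Matrix.trace_mul_comm, ← coe_mul, ← mul_assoc,
      mul_inv_cancel, one_mul, Matrix.trace_fin_two, ModularGroup.coe_S]
    simp
  have hdet := Gamma0.det_eq s
  have h1 : (s 0 0 : ZMod M) ^ 2 = -1 := by
    have h0 : (s 1 1 : ZMod M) = -(s 0 0 : ZMod M) := by
      rw [eq_neg_iff_add_eq_zero, add_comm]
      exact_mod_cast congrArg (Int.cast : ℤ → ZMod M) htr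
    have hd : (s 0 0 : ZMod M) * s 1 1 - s 0 1 * s 1 0 = 1 := by
      exact_mod_cast congrArg (Int.cast : ℤ → ZMod M) hdet
    rw [hc, h0, mul_zero, sub_zero] at hd
    linear_combination -hd
  have h2 := congrArg (ZMod.castHom hvM (ZMod v)) h1
  rw [map_pow, map_neg, map_one, map_intCast] at h2
  exact ZMod.mod_four_ne_three_of_sq_eq_neg_one h2 h4

namespace IsCoreps

open Gamma0

variable {Γ' Γ : Subgroup SL(2, ℤ)} {ι : Type*} {σ : ι → SL(2, ℤ)} {A : Type*} [AddCommGroup A]
  {R : Type*} [Semiring R] [Module R A] (h : IsCoreps Γ' Γ σ)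

/-- An antisymmetric function is an antisymmetrisation, with support on chosen representatives. -/
theorem exists_transversal (hΓ : SFree Γ) (hneg : -1 ∈ Γ) :
    ∃ R : SL(2, ℤ) ⧸ Γ → Prop, ∀ x, R (ModularGroup.S • x) ↔ ¬ R x := by
  have hSS : ∀ x : SL(2, ℤ) ⧸ Γ, ModularGroup.S • ModularGroup.S • x = x := fun x => by
    rw [← mul_smul, S_mul_S, neg_one_smul_coset hneg]
  refine ⟨fun x => WellOrderingRel x (ModularGroup.S • x), fun x => ?_⟩
  show WellOrderingRel _ _ ↔ ¬ WellOrderingRel _ _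
  rw [hSS]
  refine ⟨fun h1 h2 => asymm h1 h2, fun h1 => ?_⟩
  rcases trichotomous_of WellOrderingRel (ModularGroup.S • x) x with h2 | h2 | h2
  exacts [h2, absurd h2 (hΓ x), absurd h2 h1]

theorem apply_neg_one' (htors : ∀ x : A, x + x = 0 → x = 0) (hneg : -1 ∈ Γ)
    (φ : Additive Γ →+ A) : φ (Additive.ofMul ⟨-1, hneg⟩) = 0 := by
  refine htors _ ?_
  rw [← map_add, ← ofMul_mul]
  convert map_zero φ
  refine congrArg Additive.ofMul (Subtype.ext ?_)
  simp

theorem exists_third (h3 : IsUnit (3 : R)) : ∃ b : R, ∀ x : A, b • (x + x + x) = x := by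
  obtain ⟨v, hv⟩ := h3
  refine ⟨(v⁻¹ : Rˣ), fun x => ?_⟩
  rw [show x + x + x = (3 : ℕ) • x by abel, ← Nat.cast_smul_eq_nsmul R, Nat.cast_ofNat, ← hv,
    ← Units.smul_def, ← Units.smul_def, inv_smul_smul]

variable [Fintype ι] (hΓ : SFree Γ) (h3 : IsUnit (3 : R))

include hΓ h3 in
theorem cores_surjective' (hneg : -1 ∈ Γ') {φ : Additive Γ →+ A}
    (hφ : φ (Additive.ofMul ⟨-1, h.le hneg⟩) = 0) : ∃ φ', h.cores R φ' = φ := by
  classical
  obtain ⟨c₀, hc₀, ⟨hu, hv⟩, rfl⟩ := exists_cocycle_toHom (h.le hneg) φ hφ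
  obtain ⟨b, hb⟩ := exists_third (A := A) h3
  obtain ⟨T, hT⟩ := exists_transversal hΓ (h.le hneg)
  obtain ⟨w, hw⟩ := h.fibreSum_surjective (fun x => if T x then c₀ ModularGroup.S x else 0)
  obtain ⟨w', hw'⟩ := h.fibreSum_surjective (c₀ Gamma0.ST)
  obtain ⟨c, hc, hcS, hcR⟩ := exists_cocycle hneg (isRelPair_proj hneg (1 : R) b w w')
  refine ⟨hc.toHom, ?_⟩
  rw [h.cores_toHom hc]
  congr 1
  refine (h.isCocycle_fibreSum hc).ext_of_eq hc₀ (funext fun x => ?_) (funext fun x => ?_)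
  · rw [hcS, projS, one_smul, h.fibreSum_sub, h.fibreSum_comp_smul, hw, hw]
    by_cases hx : T x
    · rw [if_pos hx, if_neg fun h' => (hT x).1 h' hx, sub_zero]
    · rw [if_neg hx, if_pos ((hT x).2 hx), zero_sub,
        eq_neg_of_add_eq_zero_right (hu x), neg_neg]
  · have h' := eq_neg_of_add_eq_zero_right (hv x)
    rw [hcR, projR, h.fibreSum_smul, h.fibreSum_add, h.fibreSum_sub, h.fibreSum_sub,
      h.fibreSum_comp_smul (f := w') Gamma0.ST,
      show (fun y => w' (Gamma0.ST • Gamma0.ST • y)) = fun y => w' ((Gamma0.ST * Gamma0.ST) • y) from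
        funext fun y => by rw [mul_smul],
      h.fibreSum_comp_smul, mul_smul, hw', hw', hw', h']
    conv_rhs => rw [← hb (c₀ Gamma0.ST x)]
    congr 1
    abel

include hΓ h3 in
theorem exists_eq_sum_conjOp' (hneg : -1 ∈ Γ') {φ : Additive Γ' →+ A}
    (hφ0 : φ (Additive.ofMul ⟨-1, hneg⟩) = 0) (hφ : h.cores R φ = 0) :
    ∃ ψ : ι → (Additive Γ' →+ A), φ = ∑ i, (h.conjOp R i (ψ i) - ψ i) := by
  obtain ⟨c, hc, hrel, rfl⟩ := exists_cocycle_toHom hneg φ hφ0
  classical
  obtain ⟨b, hb⟩ := exists_third (A := A) h3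
  obtain ⟨T, hT⟩ := exists_transversal hΓ (h.le hneg)
  rw [h.cores_toHom hc] at hφ
  obtain ⟨f, hf⟩ := ((h.isCocycle_fibreSum hc).toHom_eq_zero_iff).1 hφ
  obtain ⟨f', hf'⟩ := h.fibreSum_surjective f
  set c' : SL(2, ℤ) → SL(2, ℤ) ⧸ Γ' → A := fun g y => c g y - (f' (g • y) - f' y) with hc'def
  have hc' : IsCocycle c' := fun g k y => by
    simp only [hc'def]
    rw [hc, mul_smul]
    abel
  have hsum : ∀ g x, h.fibreSum (c' g) x = 0 := fun g x => by
    rw [show c' g = c g - ((fun y => f' (g • y)) - f') from rfl, h.fibreSum_sub, h.fibreSum_sub,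
      h.fibreSum_comp_smul, hf', hf', hf g x, sub_self]
  have htoHom : hc.toHom = hc'.toHom := AddMonoidHom.ext fun x => by
    obtain ⟨γ, rfl⟩ := Additive.ofMul.surjective x
    rw [IsCocycle.toHom_apply, IsCocycle.toHom_apply]
    show _ = c _ _ - _
    have hfix : (γ : SL(2, ℤ)) • (QuotientGroup.mk 1 : SL(2, ℤ) ⧸ Γ') = QuotientGroup.mk 1 := by
      rw [MulAction.Quotient.smul_coe, smul_eq_mul, mul_one, QuotientGroup.eq]
      simp
    rw [hfix, sub_self, sub_zero]
  have hrelS : ∀ y, c' ModularGroup.S (ModularGroup.S • y) = -c' ModularGroup.S y := fun y => by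
    refine eq_neg_of_add_eq_zero_right ?_
    simp only [hc'def, ← mul_smul ModularGroup.S ModularGroup.S, S_mul_S,
      neg_one_smul_coset hneg]
    rw [← hrel.1 y]
    abel
  have hrelR : ∀ y, c' Gamma0.ST (Gamma0.ST • Gamma0.ST • y) = -(c' Gamma0.ST y + c' Gamma0.ST (Gamma0.ST • y)) := fun y => by
    refine eq_neg_of_add_eq_zero_right ?_
    simp only [hc'def]
    rw [show Gamma0.ST • Gamma0.ST • Gamma0.ST • y = y by rw [← mul_smul, ← mul_smul, ← pow_two, ← pow_succ, ST_pow_three,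
      neg_one_smul_coset hneg], ← hrel.2 y]
    abel
  obtain ⟨u, hu⟩ := h.exists_eq_sum_rightMul
    (w := fun y => if T (h.proj y) then c' ModularGroup.S y else 0) fun x => by
      obtain ⟨y, rfl⟩ := h.proj_surjective x
      rw [h.fibreSum_eq rfl]
      simp only [h.proj_rightMul]
      split_ifs with hy
      · rw [← h.fibreSum_eq rfl, hsum]
      · exact Finset.sum_const_zero
  obtain ⟨v, hv⟩ := h.exists_eq_sum_rightMul (hsum Gamma0.ST)
  choose d hd hdS hdR using fun i => exists_cocycle hneg (isRelPair_proj hneg (1 : R) b (u i) (v i))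
  refine ⟨fun i => (hd i).toHom, ?_⟩
  set e : SL(2, ℤ) → SL(2, ℤ) ⧸ Γ' → A :=
    fun g y => ∑ i, (d i g (h.rightMul i y) - d i g y) with hedef
  have he : IsCocycle e := fun g k y => by
    simp only [hedef, ← Finset.sum_add_distrib]
    refine Finset.sum_congr rfl fun i _ => ?_
    rw [hd i g k, hd i g k, h.rightMul_smul]
    abel
  have hce : c' = e := by
    refine hc'.ext_of_eq he (funext fun y => ?_) (funext fun y => ?_)
    · have e2 : c' ModularGroup.S y = (if T (h.proj y) then c' ModularGroup.S y else 0) -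
          if T (h.proj (ModularGroup.S • y)) then c' ModularGroup.S (ModularGroup.S • y) else 0 := by
        rw [h.proj_smul, hrelS]
        by_cases hy : T (h.proj y)
        · rw [if_pos hy, if_neg fun h' => (hT _).1 h' hy, sub_zero]
        · rw [if_neg hy, if_pos ((hT _).2 hy), zero_sub, neg_neg]
      rw [e2, hu, hu, ← Finset.sum_sub_distrib]
      refine Finset.sum_congr rfl fun i _ => ?_
      simp only [hdS, projS, one_smul, Pi.sub_apply, h.rightMul_smul]
      abel
    · conv_lhs => rw [← hb (c' Gamma0.ST y)]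
      have e3 : c' Gamma0.ST y + c' Gamma0.ST y + c' Gamma0.ST y =
          (c' Gamma0.ST y - c' Gamma0.ST (Gamma0.ST • y)) + (c' Gamma0.ST y - c' Gamma0.ST (Gamma0.ST • Gamma0.ST • y)) := by
        rw [hrelR]
        abel
      rw [e3, hv, hv, hv, ← Finset.sum_sub_distrib, ← Finset.sum_sub_distrib,
        ← Finset.sum_add_distrib, Finset.smul_sum]
      refine Finset.sum_congr rfl fun i _ => ?_
      simp only [hdR, projR, Pi.smul_apply, Pi.sub_apply, Pi.add_apply, h.rightMul_smul,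
        ← smul_sub]
      congr 1
      abel
  rw [htoHom]
  refine AddMonoidHom.ext fun x => ?_
  obtain ⟨γ, rfl⟩ := Additive.ofMul.surjective x
  rw [AddMonoidHom.finsetSum_apply, IsCocycle.toHom_apply, hce]
  refine Finset.sum_congr rfl fun i _ => ?_
  rw [AddMonoidHom.sub_apply, h.conjOp_toHom (hd i) i]
  rfl

end IsCoreps

end Fermat.Agent.RT.GammaH
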