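import Fermat.Agent.RT.GammaH.Local
import Fermat.Agent.TwoAdic.Module.CoresTwo

/-!
# Freeness over the diamond group ring when `2` is not invertible
-/

set_option autoImplicit false

noncomputable section

namespace Fermat.Agent.RT.GammaH

open IsLocalRing MvPolynomial

/-- Homomorphisms killing `-1` lift along surjections when `S` fixes no coset and `3` is
invertible. -/
theorem exists_lift' {O A B : Type} [CommRing O] [AddCommGroup A] [AddCommGroup B] [Module O A]
    [Module O B] {Γ : Subgroup (Matrix.SpecialLinearGroup (Fin 2) ℤ)} (hneg : -1 ∈ Γ)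
    (hfree : SFree Γ) (h3 : IsUnit (3 : O)) (f : A →ₗ[O] B) (hf : Function.Surjective f)
    (φ : Additive Γ →+ B) (hφ : φ (Additive.ofMul ⟨-1, hneg⟩) = 0) :
    ∃ ψ : Additive Γ →+ A, f.toAddMonoidHom.comp ψ = φ := by
  classical
  obtain ⟨c₀, hc₀, ⟨hu, hv⟩, rfl⟩ := Gamma0.exists_cocycle_toHom hneg φ hφ
  obtain ⟨b, hb⟩ := IsCoreps.exists_third (A := B) h3
  obtain ⟨T, hT⟩ := IsCoreps.exists_transversal hfree hneg
  obtain ⟨c, hc, hcS, hcR⟩ := Gamma0.exists_cocycle hneg (IsCoreps.isRelPair_proj hneg (1 : O) b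
    (fun x => if T x then Function.surjInv hf (c₀ ModularGroup.S x) else 0)
    (fun x => Function.surjInv hf (c₀ Gamma0.ST x)))
  refine ⟨hc.toHom, ?_⟩
  have hcomp : Gamma0.IsCocycle fun g x => f (c g x) := fun g g' x => by
    show f (c (g * g') x) = _
    rw [hc, map_add]
  have key : (fun g x => f (c g x)) = c₀ := by
    refine hcomp.ext_of_eq hc₀ (funext fun x => ?_) (funext fun x => ?_)
    · show f (c ModularGroup.S x) = _
      rw [hcS]
      simp only [IsCoreps.projS, one_smul, Pi.sub_apply]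
      by_cases hx : T x
      · rw [if_pos hx, if_neg fun h' => (hT x).1 h' hx, sub_zero, Function.surjInv_eq hf]
      · rw [if_neg hx, if_pos ((hT x).2 hx), zero_sub, _root_.map_neg, Function.surjInv_eq hf,
          eq_neg_of_add_eq_zero_right (hu x), neg_neg]
    · show f (c Gamma0.ST x) = _
      rw [hcR]
      simp only [IsCoreps.projR, Pi.smul_apply, Pi.sub_apply, Pi.add_apply, map_smul, map_sub,
        map_add, Function.surjInv_eq hf]
      conv_rhs => rw [← hb (c₀ Gamma0.ST x)]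
      rw [eq_neg_of_add_eq_zero_right (hv x)]
      congr 1
      abel
  refine AddMonoidHom.ext fun x => ?_
  obtain ⟨γ, rfl⟩ := Additive.ofMul.surjective x
  exact congrFun (congrFun key (γ : Matrix.SpecialLinearGroup (Fin 2) ℤ)) _

section

variable {M : ℕ} {K : Subgroup (ZMod M)ˣ} {A : Type*} [AddCommGroup A] (R : Type*) [Semiring R]
  [Module R A] [Fintype ((ZMod M)ˣ ⧸ K)] (h3 : IsUnit (3 : R))
  (htwo : ∀ x : A, x + x = 0 → x = 0) (hfree : SFree (gammaH M (⊤ : Subgroup (ZMod M)ˣ)))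

include h3 htwo hfree

theorem coresTop_surjective' (hneg : -1 ∈ K) : Function.Surjective (coresTop (A := A) R K) :=
  fun _ => (isCoreps_deltaRep (K := K)).cores_surjective' hfree h3 (neg_one_mem_gammaH hneg)
    (IsCoreps.apply_neg_one' htwo _ _)

theorem exists_eq_sum_diamond' (hneg : -1 ∈ K) {φ : Additive (gammaH M K) →+ A}
    (hφ : coresTop R K φ = 0) :
    ∃ ψ : (ZMod M)ˣ ⧸ K → (Additive (gammaH M K) →+ A),
      φ = ∑ q, (diamond M K R q.out (ψ q) - ψ q) := by
  exact (isCoreps_deltaRep (K := K)).exists_eq_sum_conjOp' hfree h3 (neg_one_mem_gammaH hneg)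
    (IsCoreps.apply_neg_one' htwo _ _) hφ

end

variable {O : Type} [CommRing O] [IsLocalRing O] {L : ℕ} {Δ : Type} [CommGroup Δ]
  {ψ : (ZMod L)ˣ →* Δ} (S : Finset ℕ) (abar : ℕ → ResidueField O) {K : Subgroup (ZMod L)ˣ}
  [IsDomain O] [IsDiscreteValuationRing O] [Finite (ResidueField O)]
  [IsAdicComplete (maximalIdeal O) O] {p : ℕ} [Fact p.Prime] [CharP (ResidueField O) p]
  [Fintype Δ] [NeZero L]

/-- Freeness at any residual characteristic other than `3`, when `S` fixes no coset of `Γ₀(L)`;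
for `p = 2` a prime `v ∣ L` with `v % 4 = 3` gives this by `sFree_gammaH`. -/
theorem exists_freeData' (h3 : IsUnit (3 : O)) (htwo : ∀ x : O, x + x = 0 → x = 0)
    (hfree : SFree (gammaH L (⊤ : Subgroup (ZMod L)ˣ))) (hneg : -1 ∈ K) (hΔ : IsPGroup p Δ) (hψ : Function.Surjective ψ)
    (hK : ∀ u, u ∈ K ↔ ψ u = 1)
    (hS : ∀ v : ℕ, v.Prime → v ∣ L → v ∈ S)
    (hEis : ∃ ℓ : ℕ, ℓ.Prime ∧ ℓ ∉ S ∧ abar ℓ ≠ 1 + (ℓ : ResidueField O)) :
    ∃ e : OpRing O L S, IsLocalizer (resIdeal S abar L) (HomMod O S K O) e ∧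
      IsLocalizer (resIdeal S abar L) (HomMod O S (⊤ : Subgroup (ZMod L)ˣ) O) e ∧
      ∃ b : Fin (Module.finrank O (localPart O e (HomMod O S (⊤ : Subgroup (ZMod L)ˣ) O))) →
          localPart O e (HomMod O S K O),
        Function.Bijective fun c :
            Fin (Module.finrank O (localPart O e (HomMod O S (⊤ : Subgroup (ZMod L)ˣ) O))) × Δ →₀ O =>
          c.sum fun iq x =>
            x • localAct O e (HomMod O S K O) (X (Sum.inl (psiInv hψ iq.2))) (b iq.1) := by
  classical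
  have := Fintype.ofFinite ((ZMod L)ˣ ⧸ K)
  set H := HomMod O S K O
  set H₀ := HomMod O S (⊤ : Subgroup (ZMod L)ˣ) O
  obtain ⟨e, he⟩ := exists_isLocalizer (O := O) (resIdeal S abar L) (H × H₀)
  have heH : IsLocalizer (resIdeal S abar L) H e :=
    he.of_injective (LinearMap.inl _ H H₀) LinearMap.inl_injective
  have heH₀ : IsLocalizer (resIdeal S abar L) H₀ e :=
    he.of_injective (LinearMap.inr _ H H₀) LinearMap.inr_injective
  refine ⟨e, heH, heH₀, ?_⟩
  obtain ⟨E, hEout⟩ := exists_deltaEquiv hK hψ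
  have hE : ∀ (q : Δ) (x : H), (X (Sum.inl (psiInv hψ q)) : OpRing O L S) • x =
      diamond L K O (E q).out x := fun q x => by
    rw [X_inl_smul, diamond_congr_ker hK (u := psiInv hψ q) (v := (E q).out)]
    exact (Function.surjInv_eq hψ q).trans (hEout q).symm
  obtain ⟨ℓ, hℓp, hℓS, hℓ⟩ := hEis
  obtain ⟨ϖ, hϖ⟩ := IsDiscreteValuationRing.exists_irreducible O
  set δ : Δ → OpRing O L S := fun q => X (Sum.inl (psiInv hψ q)) with hδ
  set C' : H →ₗ[OpRing O L S] H₀ := coresLin S K O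
  set R' : H₀ →ₗ[OpRing O L S] H := resLin S K O
  have hC : Function.Surjective C' := coresTop_surjective' O h3 htwo hfree hneg
  set t₀ : OpRing O L S := X (Sum.inr ⟨ℓ, hℓp, hℓS⟩) - C ((1 : O) + (ℓ : O))
  refine exists_freeBasis (O := O) (p := p) (𝔸 := OpRing O L S) (Δ := Δ) (H := H) (H₀ := H₀)
    hΔ (resIdeal_ne_top S abar) heH heH₀ δ (fun q => ?_)
    (fun x => ?_) (fun q q' x => ?_) C' hC (fun x hx => ?_) R' (fun x => ?_) hϖ
    (t := t₀) ?_ (fun x y hxy => ?_)
  · rw [mem_resIdeal, map_sub, opRes_inl, map_one, sub_self]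
  · rw [hδ, X_inl_smul]
    exact diamond_of_mem O ((hK _).2 (Function.surjInv_eq hψ 1)) x
  · rw [X_inl_smul, X_inl_smul, X_inl_smul]
    refine (LinearMap.congr_fun (diamond_congr_ker hK (v := psiInv hψ q * psiInv hψ q') ?_) x).trans
      (diamond_mul O _ _ x)
    rw [map_mul]
    simp only [psiInv, Function.surjInv_eq hψ]
  · obtain ⟨y, hy⟩ := exists_eq_sum_diamond' O h3 htwo hfree hneg hx
    refine ⟨fun q => y (E q), ?_⟩
    refine (hy.trans (E.sum_comp fun i => diamond L K O i.out (y i) - y i).symm).trans ?_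
    exact Finset.sum_congr rfl fun q _ => congrArg₂ HSub.hSub (hE q (y (E q))).symm rfl
  · simp only [hδ, hE]
    exact (resTop_coresTop O x).trans (E.sum_comp fun i => diamond L K O i.out x).symm
  · rw [mem_resIdeal, map_sub, opRes_inr, ← algebraMap_eq, AlgHom.commutes,
      ResidueField.algebraMap_eq, map_add, map_one, map_natCast, sub_eq_zero]
    exact hℓ
  · have : Fact ℓ.Prime := ⟨hℓp⟩
    let r : O →ₗ[O] ResidueField O := Algebra.linearMap O (ResidueField O)
    have h0 : resTop O K (mapCoeff r x) = 0 := by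
      show resLin S K _ (mapCoeff r x) = 0
      rw [← mapCoeff_resLin, hxy]
      refine DFunLike.ext _ _ fun γ => ?_
      show residue O (ϖ * y γ) = 0
      rw [map_mul, (residue_eq_zero_iff ϖ).2 hϖ.not_isUnit, zero_mul]
    have hT : hecke L ⊤ ℓ O (mapCoeff r x) = (ℓ + 1) • mapCoeff r x :=
      hecke_of_resTop_eq_zero' O h0 fun hc => hℓS (hS ℓ hℓp hc)
    set t : OpRing O L S := X (Sum.inr ⟨ℓ, hℓp, hℓS⟩) - C ((1 : O) + (ℓ : O))
    have hzero : mapCoeff r (t • x) = 0 := by
      rw [map_smul, sub_smul, X_inr_smul, hT, ← algebraMap_eq, algebraMap_smul, sub_eq_zero,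
        ← Nat.cast_smul_eq_nsmul O (ℓ + 1)]
      congr 1
      push_cast
      ring
    refine exists_eq_smul S hϖ fun γ => ?_
    have hγ : residue O ((t • x : H₀) γ) = 0 := DFunLike.congr_fun hzero γ
    rw [residue_eq_zero_iff, hϖ.maximalIdeal_eq, Ideal.mem_span_singleton] at hγ
    exact hγ

end Fermat.Agent.RT.GammaH
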